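import Fermat.Agent.ResidualTorsion.Bound
import Fermat.Agent.SemistableRed.Frob
import Fermat.Agent.Reduction.Exists
import Fermat.Agent.Reduction.JZeroInjective
import Fermat.Agent.Reduction.RedSurj
import Fermat.Agent.IgusaGenus.Main
import Fermat.Agent.Frobenius.Exists
import Fermat.Agent.J0Torsion.Card
import Fermat.Agent.XHLite.Glue.GenusCount

/-!
# Classes killed by `p ^ n` on `X₀(M)` modulo `q ∤ M`

Reduction of classes is surjective, so the classes of the special fibre are `p`-divisible as soon
as those of `J₀(M)` are, and then reduction is bijective on classes killed by `p ^ n`.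
-/

set_option autoImplicit false

noncomputable section

open AlgebraicCurve ModularCurve IsLocalRing Fermat.Agent.FunctionFieldRR Fermat.Agent.Reduction

namespace Fermat.Agent.ResidualTorsion

/-- Elements integral over `ℤ` lie in finite fields. -/
theorem exists_pow_card_eq_self {k : Type*} [Field k] (q : ℕ) [Fact q.Prime] [CharP k q] {c : k}
    (hc : IsIntegral ℤ c) : ∃ m : ℕ, 0 < m ∧ c ^ q ^ m = c := by
  let := ZMod.algebra k q
  obtain ⟨P, hP, hPc⟩ := hc
  have hint : IsIntegral (ZMod q) c := by
    refine ⟨P.map (Int.castRingHom (ZMod q)), hP.map _, ?_⟩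
    rw [Polynomial.eval₂_map, RingHom.ext_int ((algebraMap (ZMod q) k).comp
      (Int.castRingHom (ZMod q))) (algebraMap ℤ k)]
    exact hPc
  have := IntermediateField.adjoin.finiteDimensional hint
  set E := IntermediateField.adjoin (ZMod q) ({c} : Set k) with hE
  have : Finite E := Module.finite_of_finite (ZMod q)
  have := Fintype.ofFinite E
  refine ⟨Module.finrank (ZMod q) E, Module.finrank_pos, ?_⟩
  have h := FiniteField.pow_card (⟨c, IntermediateField.mem_adjoin_simple_self _ c⟩ : E)
  rw [← Nat.card_eq_fintype_card, Module.natCard_eq_pow_finrank (K := ZMod q), Nat.card_zmod] at h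
  exact congrArg Subtype.val h

theorem two_mul_genus0_eq_rank (M : ℕ) [NeZero M] : 2 * genus0 M = J0Torsion.rank M := by
  have : Algebra.IsAlgebraic ℚ (AlgebraicClosure ℚ) := AlgebraicClosure.isAlgebraic ℚ
  obtain ⟨φ⟩ : Nonempty (AlgebraicClosure ℚ →+* ℂ) :=
    ⟨(IsAlgClosed.lift (R := ℚ) (S := AlgebraicClosure ℚ) (M := ℂ)).toRingHom⟩
  have h1 := J0Torsion.rank_eq_genus (J0Torsion.parabolicFull (N := M))
  rw [← XHLite.genus0_eq φ M] at h1
  exact_mod_cast h1.symm

/-- If two powers of `g` agree at `x`, their quotient fixes `x`. -/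
theorem pow_sub_smul_eq_self {G α : Type*} [Group G] [MulAction G α] (g : G) (x : α) {a b : ℕ}
    (hab : a ≤ b) (h : g ^ a • x = g ^ b • x) : g ^ (b - a) • x = x :=
  MulAction.injective (g ^ a) (by
    show g ^ a • g ^ (b - a) • x = g ^ a • x
    rw [← mul_smul, ← pow_add, Nat.add_sub_cancel' hab, h])

section Special

variable {M q : ℕ} [NeZero M] [Fact q.Prime] {A : ValuationSubring (AlgebraicClosure ℚ)}

/-- The residue field has characteristic `q`. -/
theorem charP_residue (hA : A.LiesOverPrime q) : CharP (ResidueField A) q :=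
  Frobenius.residueField_charP Fact.out hA

variable (hqM : ¬ q ∣ M) (hA : A.LiesOverPrime q)

include hqM hA in
theorem isFunctionField_fullC :
    IsFunctionField (ResidueField A) (modularFunctionFieldFullC (ResidueField A) M) := by
  have hF := IgusaGenus.reductionFacts (N := M) hqM hA
  have : IsAlgClosed (ResidueField A) := isAlgClosed_residueField
  exact (modularGoodModel A M hA hF).isFunctionField_red

variable [IsAlgClosed (ResidueField A)] [CharP (ResidueField A) q]
  [IsFunctionField (ResidueField A) (modularFunctionFieldFullC (ResidueField A) M)]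

theorem frobG_pow_smul_jbar (m : ℕ) :
    SemistableRed.frobG (ResidueField A) M q ^ m • SemistableRed.jbar (ResidueField A) M =
      SemistableRed.jbar (ResidueField A) M := by
  induction m with
  | zero => simp
  | succ m ih => rw [pow_succ', mul_smul, ih, SemistableRed.frobG_smul_jbar]

theorem frobG_pow_smul_algebraMap (m : ℕ) (c : ResidueField A) :
    SemistableRed.frobG (ResidueField A) M q ^ m •
      algebraMap (ResidueField A) (modularFunctionFieldFullC (ResidueField A) M) c =
      algebraMap (ResidueField A) (modularFunctionFieldFullC (ResidueField A) M) (c ^ q ^ m) := by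
  induction m generalizing c with
  | zero => rw [pow_zero, one_smul, pow_zero, pow_one]
  | succ m ih =>
    rw [pow_succ', mul_smul, ih, SemilinearAut.smul_algebraMap, SemistableRed.baseAut_frobG,
      ← pow_mul, pow_succ]

local notation "jb" => SemistableRed.jbar (ResidueField A) M
local notation "Φ₀" => SemistableRed.frobG (ResidueField A) M q
local notation "cst" => algebraMap (ResidueField A) (modularFunctionFieldFullC (ResidueField A) M)

theorem transcendental_jbar : Transcendental (ResidueField A) jb :=
  transcendental_jC (ResidueField A) M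

/-- Every place is a pole of `j` or a zero of `j - c`. -/
theorem pole_or_zero (P : Place (ResidueField A) (modularFunctionFieldFullC (ResidueField A) M)) :
    P.ord jb < 0 ∨ ∃ c, 0 < P.ord (jb - cst c) := by
  rcases ord_pos_or_ord_neg P jb with h | ⟨c, hc | hc⟩
  · exact Or.inl h
  · exact absurd (sub_eq_zero.mpr hc) (fun h => transcendental_jbar (A := A) (M := M)
      (sub_eq_zero.mp h ▸ isAlgebraic_algebraMap c))
  · exact Or.inr ⟨c, hc⟩

theorem ord_pow_smul_sub (m : ℕ)
    (P : Place (ResidueField A) (modularFunctionFieldFullC (ResidueField A) M)) (c : ResidueField A) :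
    (Φ₀ ^ m • P).ord (jb - cst (c ^ q ^ m)) = P.ord (jb - cst c) := by
  rw [← SemilinearAut.ord_smul (Φ₀ ^ m) P, smul_sub, frobG_pow_smul_jbar, frobG_pow_smul_algebraMap]

theorem ord_pow_smul_jbar (m : ℕ)
    (P : Place (ResidueField A) (modularFunctionFieldFullC (ResidueField A) M)) :
    (Φ₀ ^ m • P).ord jb = P.ord jb := by
  conv_rhs => rw [← SemilinearAut.ord_smul (Φ₀ ^ m) P, frobG_pow_smul_jbar]

theorem eq_of_zero {P : Place (ResidueField A) (modularFunctionFieldFullC (ResidueField A) M)}
    {c c' : ResidueField A} (h : 0 < P.ord (jb - cst c)) (h' : 0 < P.ord (jb - cst c')) : c = c' := by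
  by_contra hne
  have hd : cst (c' - c) = (jb - cst c) + (-(jb - cst c')) := by rw [map_sub]; ring
  have h0 : P.ord (cst (c' - c)) = 0 := ord_algebraMap _ _
  have hz : cst (c' - c) ≠ 0 := by
    rw [Ne, map_eq_zero, sub_eq_zero]; exact Ne.symm hne
  have := le_ord_add (P := P) (m := 1) (hd ▸ hz) h (by rw [ord_neg]; exact h')
  rw [← hd, h0] at this
  omega

theorem finite_fixed_places {m : ℕ} (hm : 0 < m) :
    {P : Place (ResidueField A) (modularFunctionFieldFullC (ResidueField A) M) |
      Φ₀ ^ m • P = P}.Finite := by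
  classical
  have hfin : {c : ResidueField A | c ^ q ^ m = c}.Finite := by
    refine Set.finite_coe_iff.mp (Nat.finite_of_card_ne_zero ?_)
    show Nat.card {c : ResidueField A // c ^ q ^ m = c} ≠ 0
    rw [natCard_pow_eq_self Fact.out hm.ne']
    exact pow_ne_zero _ (Fact.out : q.Prime).ne_zero
  refine ((finite_ord_neg (K := ResidueField A) jb).union (hfin.biUnion fun c _ =>
    finite_ord_ne_zero (K := ResidueField A) (jb - cst c))).subset fun P hP => ?_
  rcases pole_or_zero P with h | ⟨c, hc⟩
  · exact Or.inl h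
  refine Or.inr (Set.mem_biUnion (x := c) ?_ hc.ne')
  have h2 := ord_pow_smul_sub m P c
  rw [show Φ₀ ^ m • P = P from hP] at h2
  exact eq_of_zero (c := c ^ q ^ m) (c' := c) (lt_of_lt_of_eq hc h2.symm) hc

include hA in
theorem periodic_place (P : Place (ResidueField A) (modularFunctionFieldFullC (ResidueField A) M)) :
    ∃ r, 0 < r ∧ Φ₀ ^ r • P = P := by
  suffices h : ∃ m, 0 < m ∧ (Set.range fun i => (Φ₀ ^ m) ^ i • P).Finite by
    obtain ⟨m, hm, hfin⟩ := h
    obtain ⟨a, -, b, -, hne, hab⟩ := Set.infinite_univ.exists_ne_map_eq_of_mapsTo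
      (f := fun i => (Φ₀ ^ m) ^ i • P) (fun i _ => Set.mem_range_self i) hfin
    wlog hlt : a < b generalizing a b
    · exact this b a hne.symm hab.symm (by omega)
    exact ⟨m * (b - a), Nat.mul_pos hm (by omega),
      (congrArg (· • P) (pow_mul Φ₀ m (b - a))).trans (pow_sub_smul_eq_self _ _ hlt.le hab)⟩
  rcases pole_or_zero P with h | ⟨c, hc⟩
  · refine ⟨1, one_pos, (finite_ord_neg (K := ResidueField A) jb).subset ?_⟩
    rintro _ ⟨i, rfl⟩
    show ((Φ₀ ^ 1) ^ i • P).ord jb < 0
    rwa [← pow_mul, ord_pow_smul_jbar]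
  · have : Algebra.IsAlgebraic ℚ (AlgebraicClosure ℚ) := AlgebraicClosure.isAlgebraic ℚ
    obtain ⟨m, hm, hcm⟩ := exists_pow_card_eq_self q (Frobenius.residueField_isIntegral
      (Fact.out : q.Prime) hA c)
    refine ⟨m, hm, (finite_ord_ne_zero (K := ResidueField A) (jb - cst c)).subset ?_⟩
    rintro _ ⟨i, rfl⟩
    show ((Φ₀ ^ m) ^ i • P).ord (jb - cst c) ≠ 0
    have hci : c ^ q ^ (m * i) = c := by
      induction i with
      | zero => simp
      | succ i ih => rw [Nat.mul_succ, pow_add, pow_mul, ih, hcm]
    rw [← pow_mul, ← hci, ord_pow_smul_sub]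
    exact hc.ne'

include hA in
theorem periodic_divisor (D : Divisor (ResidueField A) (modularFunctionFieldFullC (ResidueField A) M)) :
    ∃ r, 0 < r ∧ Φ₀ ^ r • D = D := by
  classical
  choose r hr0 hr using fun P => periodic_place hA (M := M) P
  refine ⟨∏ P ∈ D.support, r P, Finset.prod_pos fun P _ => hr0 P, ?_⟩
  rw [SemilinearAut.divisor_smul_def]
  refine (Finsupp.mapDomain_congr fun P hP => ?_).trans Finsupp.mapDomain_id
  obtain ⟨t, ht⟩ := Finset.dvd_prod_of_mem r hP
  rw [ht, pow_mul]
  clear ht
  induction t with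
  | zero => simp
  | succ t ih => rw [pow_succ, mul_smul, hr, ih]

include hA in
theorem periodic_class
    (x : Pic0 (ResidueField A) (modularFunctionFieldFullC (ResidueField A) M)) :
    ∃ r, 0 < r ∧ Φ₀ ^ r • x = x := by
  obtain ⟨D, rfl⟩ := Pic0.mk_surjective x
  obtain ⟨r, hr0, hr⟩ := periodic_divisor hA (D : Divisor (ResidueField A) (modularFunctionFieldFullC (ResidueField A) M))
  refine ⟨r, hr0, ?_⟩
  rw [SemilinearAut.pic0_smul_mk]
  exact congrArg Pic0.mk (Subtype.ext hr)

/-- The genus of the special fibre. -/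
theorem genusC_eq (hN : (M : ResidueField A) ≠ 0) (hA : A.LiesOverPrime q) :
    genusC (ResidueField A) M hN = genus0 M :=
  le_antisymm (genusC_le_genus0 hA hN) (IgusaGenus.genus0_le_genusC hA hN)

/-- The Frobenius curve `X₀(M)` over the residue field. -/
def frobCurve (hqM : ¬ q ∣ M) (hA : A.LiesOverPrime q) :
    FrobCurve (ResidueField A) (modularFunctionFieldFullC (ResidueField A) M) where
  Φ := Φ₀
  Q := q
  one_lt := (Fact.out : q.Prime).one_lt
  base := SemistableRed.baseAut_frobG _ _ _
  natCard_const m hm := natCard_pow_eq_self Fact.out hm.ne'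
  coord i :=
    { toFun := fun x => (x : LaurentSeries (ResidueField A)).coeff i
      map_add' := fun x y => by simp
      map_smul' := fun c x => by
        rw [IntermediateField.coe_smul, Algebra.smul_def, algebraMap_laurentSeries_eq_single,
          HahnSeries.coeff_single_zero_mul, RingHom.id_apply, smul_eq_mul] }
  coord_sep x h := Subtype.ext (HahnSeries.ext (funext fun i => h i))
  coord_smul i x := by
    show ((Φ₀ • x : modularFunctionFieldFullC (ResidueField A) M) :
      LaurentSeries (ResidueField A)).coeff i = _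
    rw [SemistableRed.coe_frobG_smul, coeffMap_coeff, frobenius_def]
    rfl
  inf := (modularGoodModel A M hA (IgusaGenus.reductionFacts hqM hA)).cuspK
  inf_fix := by
    set Md := modularGoodModel A M hA (IgusaGenus.reductionFacts (N := M) hqM hA)
    refine Place.ext (SetLike.ext fun x => ?_)
    rw [SemilinearAut.smul_toValuationSubring, ValuationSubring.mem_pointwise_smul_iff_inv_smul_mem]
    show (∀ n < 0, ((Φ₀⁻¹ • x : modularFunctionFieldFullC (ResidueField A) M) :
      LaurentSeries (ResidueField A)).coeff n = 0) ↔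
        ∀ n < 0, (x : LaurentSeries (ResidueField A)).coeff n = 0
    obtain ⟨y, rfl⟩ : ∃ y, Φ₀ • y = x := ⟨Φ₀⁻¹ • x, smul_inv_smul _ _⟩
    rw [inv_smul_smul]
    refine forall₂_congr fun n _ => ?_
    rw [SemistableRed.coe_frobG_smul, coeffMap_coeff, frobenius_def]
    exact (pow_eq_zero_iff (Fact.out : q.Prime).ne_zero).symm
  g := genus0 M
  rr D hD := by
    have hN := natCast_residue_ne_zero hA hqM
    have := finiteDimensional_jC (ResidueField A) M hN
    have := isSeparable_jC (ResidueField A) M hN
    rw [← genusC_eq hN hA] at hD ⊢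
    exact finrank_eq_of_degree_gt (transcendental_jC _ M) (by unfold genusC at hD; omega)
  riemann D := by
    have hN := natCast_residue_ne_zero hA hqM
    have := finiteDimensional_jC (ResidueField A) M hN
    have := isSeparable_jC (ResidueField A) M hN
    rw [← genusC_eq hN hA]
    exact riemann_inequality (transcendental_jC _ M) D
  finite_fixed m hm := finite_fixed_places hm

include hqM hA in
/-- Reduction of classes is surjective. -/
theorem reductionModL_surjective : Function.Surjective (reductionModL A M) := by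
  classical
  have hF := IgusaGenus.reductionFacts (N := M) hqM hA
  have := hF.char0.hasPrincipal
  have := hF.charL.hasPrincipal
  set Md := modularGoodModel A M hA hF
  have := Md.isFunctionField_bar
  have h := reductionInputsModL hA hF
  set r := placeReductionModL h with hr
  have hspec := isPlaceReductionModL_placeReductionModL h
  set R := reductionMapOfSpec Md r hspec
  have hsurj : Function.Surjective r := by
    intro P
    obtain ⟨t, ht0, ht⟩ := exists_ord_eq_one P
    obtain ⟨x, hx, rfl⟩ := Md.exists_isInt_red_eq t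
    by_contra hcon
    push Not at hcon
    have hne : Md.red x ≠ 0 := fun h0 => by rw [h0] at ht; simp at ht
    have hsp := DFunLike.congr_fun (R.spec x hx hne) P
    rw [Finsupp.mapDomain_of_notMem_range, dvs_apply, ht] at hsp
    · exact zero_ne_one hsp
    · rintro ⟨v, hv⟩; exact hcon v hv
  intro y
  obtain ⟨D, rfl⟩ := Pic0.mk_surjective y
  choose s hs using hsurj
  have hdeg : Divisor.degree (Finsupp.mapDomain s (D : Divisor _ _)) = 0 := by
    rw [degree_eq_sum, Finsupp.sum_mapDomain_index (fun _ => rfl) fun _ _ _ => rfl, ← degree_eq_sum]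
    exact Divisor.mem_degZero.mp D.2
  refine ⟨Pic0.mk ⟨_, Divisor.mem_degZero.mpr hdeg⟩, ?_⟩
  rw [reductionModL_mk h]
  refine congrArg Pic0.mk (Subtype.ext ?_)
  rw [coe_reductionDegZeroAlong, ← Finsupp.mapDomain_comp]
  exact (Finsupp.mapDomain_congr fun P _ => hs P).trans Finsupp.mapDomain_id

include hqM hA in
/-- At most `p ^ (2 g n)` residual classes are killed by `p ^ n`. -/
theorem natCard_killed_residual_le {p : ℕ} (hp : p.Prime)
    (hdiv : ∀ x : JZero M, ∃ y, p • y = x) (n : ℕ) :
    {x : JZeroC (ResidueField A) M | p ^ n • x = 0}.Finite ∧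
      {x : JZeroC (ResidueField A) M | p ^ n • x = 0}.ncard ≤ p ^ (J0Torsion.rank M * n) := by
  have h := (frobCurve hqM hA).natCard_killed_le hp (fun x => periodic_class hA x) (fun x => by
    obtain ⟨z, rfl⟩ := reductionModL_surjective hqM hA x
    obtain ⟨y, rfl⟩ := hdiv z
    exact ⟨reductionModL A M y, (map_nsmul _ _ _).symm⟩) n
  rwa [show (frobCurve hqM hA).g = genus0 M from rfl, two_mul_genus0_eq_rank] at h

end Special

/-- Reduction is bijective on classes killed by `p ^ n`. -/
theorem reductionModL_bijOn {M q : ℕ} [NeZero M] [Fact q.Prime] (hqM : ¬ q ∣ M)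
    {A : ValuationSubring (AlgebraicClosure ℚ)} (hA : A.LiesOverPrime q) {p : ℕ} (hp : p.Prime)
    (hpq : p ≠ q) (hdiv : ∀ x : JZero M, ∃ y, p • y = x) (n : ℕ) :
    Set.BijOn (reductionModL A M) {x | p ^ n • x = 0} {x | p ^ n • x = 0} := by
  have : IsAlgClosed (ResidueField A) := isAlgClosed_residueField
  have := charP_residue hA
  have := isFunctionField_fullC hqM hA
  have hF := IgusaGenus.reductionFacts (N := M) hqM hA
  have hmaps : Set.MapsTo (reductionModL A M) {x | p ^ n • x = 0} {x | p ^ n • x = 0} :=
    fun x hx => by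
      show p ^ n • reductionModL A M x = 0
      rw [← map_nsmul, show p ^ n • x = 0 from hx, map_zero]
  have hinj : Set.InjOn (reductionModL A M) {x | p ^ n • x = 0} := fun x hx y hy hxy => by
    refine sub_eq_zero.mp (Reduction.eq_zero_of_reductionModL_eq_zero hA hF
      (reductionInputsModL hA hF) (m := p ^ n) (fun hd => hpq ((Nat.prime_dvd_prime_iff_eq
        Fact.out hp).mp ((Fact.out : q.Prime).dvd_of_dvd_pow hd)).symm) ?_ ?_)
    · rw [nsmul_sub, show p ^ n • x = 0 from hx, show p ^ n • y = 0 from hy, sub_zero]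
    · rw [map_sub, hxy, sub_self]
  obtain ⟨hfin, hcard⟩ := natCard_killed_residual_le hqM hA hp hdiv n
  refine ⟨hmaps, hinj, ?_⟩
  have : NeZero (p ^ n) := ⟨pow_ne_zero _ hp.ne_zero⟩
  have hsrc : ({x : JZero M | p ^ n • x = 0}).ncard = p ^ (J0Torsion.rank M * n) := by
    rw [← Nat.card_coe_set_eq, mul_comm, pow_mul]
    refine (Nat.card_congr (Equiv.subtypeEquivRight fun x => ?_)).trans
      (J0Torsion.natCard_torsion' (N := M) (p ^ n))
    rw [Pic0.mem_torsion, natCast_zsmul]
    exact Iff.rfl
  refine fun y hy => ?_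
  have := Set.eq_of_subset_of_ncard_le hmaps.image_subset
    (by rw [hinj.ncard_image, hsrc]; exact hcard) hfin
  exact this ▸ hy

end Fermat.Agent.ResidualTorsion

end
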