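import Fermat.Agent.ResidualTorsion.Growth
import Mathlib.Algebra.CharP.Lemmas
import Mathlib.GroupTheory.Index
import Mathlib.Data.ZMod.Basic

/-!
# At most `p ^ (2 g n)` classes killed by `p ^ n`

For a `p`-divisible group of classes, all periodic under the Frobenius, the bound follows from the
linear growth of the `p`-part of the number of fixed classes along the `p`-power extensions.
-/

set_option autoImplicit false

noncomputable section

open AlgebraicCurve Fermat.Agent.FunctionFieldRR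

namespace Fermat.Agent.ResidualTorsion

section Group

variable {A : Type*} [AddCommGroup A]

/-- An iterate of `φ - 1` of `p`-power order, on classes killed by `p`. -/
theorem sub_one_pow_apply {p : ℕ} (hp : p.Prime) (φ : AddMonoid.End A) (j : ℕ) {x : A}
    (hx : p • x = 0) : ((φ - 1) ^ p ^ j) x = (φ ^ p ^ j) x - x := by
  obtain ⟨r, hr⟩ := (Commute.one_right (φ - 1)).exists_add_pow_prime_pow_eq hp j
  rw [sub_add_cancel, one_pow] at hr
  have h := DFunLike.congr_fun hr x
  have hz : ((p : AddMonoid.End A) * (φ - 1) * 1 * r) x = 0 := by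
    rw [mul_assoc, mul_assoc]
    show (p : AddMonoid.End A) _ = 0
    rw [AddMonoid.End.natCast_apply, ← map_nsmul, hx, map_zero]
  change (φ ^ p ^ j) x = ((φ - 1) ^ p ^ j) x + x + ((p : AddMonoid.End A) * (φ - 1) * 1 * r) x at h
  rw [hz, add_zero] at h
  rw [h, add_sub_cancel_right]

/-- The kernel of the `i`-th iterate of `φ - 1` on the classes killed by `p`. -/
def kerPow (p : ℕ) (φ : AddMonoid.End A) (i : ℕ) : AddSubgroup A :=
  AddMonoidHom.ker (nsmulAddMonoidHom (α := A) p) ⊓ AddMonoidHom.ker ((φ - 1) ^ i : AddMonoid.End A)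

theorem mem_kerPow {p : ℕ} {φ : AddMonoid.End A} {i : ℕ} {x : A} :
    x ∈ kerPow p φ i ↔ p • x = 0 ∧ ((φ - 1) ^ i) x = 0 := Iff.rfl

theorem kerPow_le_succ (p : ℕ) (φ : AddMonoid.End A) (i : ℕ) :
    kerPow p φ i ≤ kerPow p φ (i + 1) := fun x hx => by
  rw [mem_kerPow] at *
  refine ⟨hx.1, ?_⟩
  rw [pow_succ']
  show (φ - 1) (((φ - 1) ^ i) x) = 0
  rw [hx.2, map_zero]

theorem kerPow_le {p : ℕ} {φ : AddMonoid.End A} {i m : ℕ} (h : i ≤ m) :
    kerPow p φ i ≤ kerPow p φ m :=
  monotone_nat_of_le_succ (kerPow_le_succ p φ) h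

theorem kerPow_stable {p : ℕ} {φ : AddMonoid.End A} {i : ℕ}
    (h : kerPow p φ (i + 1) ≤ kerPow p φ i) : ∀ m, kerPow p φ m ≤ kerPow p φ i := by
  intro m
  induction m with
  | zero => exact kerPow_le (Nat.zero_le i)
  | succ m ih =>
    intro x hx
    rw [mem_kerPow] at hx
    have hm : (φ - 1) x ∈ kerPow p φ m := by
      refine mem_kerPow.mpr ⟨by rw [← map_nsmul, hx.1, map_zero], ?_⟩
      have := hx.2
      rwa [pow_succ] at this
    refine h (mem_kerPow.mpr ⟨hx.1, ?_⟩)
    rw [pow_succ]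
    exact (mem_kerPow.mp (ih hm)).2

theorem natCard_eq_pow_of_nsmul_eq_zero {p : ℕ} (hp : p.Prime) (n : ℕ) (K : AddSubgroup A)
    [Finite K] (hK : ∀ x ∈ K, p ^ n • x = 0) : ∃ e, Nat.card K = p ^ e := by
  have : Fact p.Prime := ⟨hp⟩
  have hG : IsPGroup p (Multiplicative K) := fun x => ⟨n, by
    show Multiplicative.ofAdd (p ^ n • x.toAdd) = 1
    rw [show p ^ n • x.toAdd = 0 from Subtype.ext (hK _ x.toAdd.2)]
    rfl⟩
  obtain ⟨e, he⟩ := IsPGroup.iff_card.mp hG
  exact ⟨e, (Nat.card_congr Multiplicative.toAdd.symm).trans he⟩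

/-- Strictly growing kernels have linearly growing cardinality. -/
theorem pow_dvd_natCard_kerPow {p : ℕ} (hp : p.Prime) {φ : AddMonoid.End A} :
    ∀ m : ℕ, Finite (kerPow p φ m) → (∀ i < m, ¬kerPow p φ (i + 1) ≤ kerPow p φ i) →
      p ^ m ∣ Nat.card (kerPow p φ m) := by
  intro m
  induction m with
  | zero => intros; simp
  | succ m ih =>
    intro hfin hlt
    have := hfin
    have hfin' : Finite (kerPow p φ m) := Finite.of_injective _
      (AddSubgroup.inclusion_injective (kerPow_le_succ p φ m))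
    have hd := ih hfin' fun i hi => hlt i (by omega)
    obtain ⟨e, he⟩ := natCard_eq_pow_of_nsmul_eq_zero hp 1 (kerPow p φ (m + 1))
      fun x hx => by rw [pow_one]; exact hx.1
    obtain ⟨e', he'⟩ := natCard_eq_pow_of_nsmul_eq_zero hp 1 (kerPow p φ m)
      fun x hx => by rw [pow_one]; exact hx.1
    have hle : m ≤ e' := (Nat.pow_dvd_pow_iff_le_right hp.one_lt).mp (he' ▸ hd)
    have hne : e' < e := by
      refine lt_of_le_of_ne ((Nat.pow_le_pow_iff_right hp.one_lt).mp
        (he ▸ he' ▸ Nat.le_of_dvd Nat.card_pos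
          (AddSubgroup.card_dvd_of_le (kerPow_le_succ p φ m)))) fun hee => hlt m (by omega) ?_
      exact (SetLike.coe_injective (Set.eq_of_subset_of_ncard_le
        (SetLike.coe_subset_coe.mpr (kerPow_le_succ p φ m))
        (le_of_eq ((he.trans (congrArg (p ^ ·) hee.symm)).trans he'.symm))
        (Set.toFinite _))).ge
    rw [he]
    exact pow_dvd_pow p (by omega)

/-- Averaging a periodic root: a root fixed by a `p`-power of `φ`. -/
theorem exists_root_fixed {p : ℕ} (hp : p.Prime) (φ : AddMonoid.End A) {n : ℕ} {u : A}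
    (hu : p ^ n • u = 0) (hfix : φ u = u) {y : A} (hy : p • y = u) {r : ℕ} (hr : 0 < r)
    (hry : (φ ^ r) y = y) : ∃ z : A, p • z = u ∧ ∃ a : ℕ, (φ ^ p ^ a) z = z := by
  classical
  have : Fact p.Prime := ⟨hp⟩
  obtain ⟨a, r', hr', rfl⟩ := Nat.exists_eq_pow_mul_and_not_dvd hr.ne' p hp.ne_one
  have hcop : Nat.Coprime r' (p ^ n) :=
    Nat.Coprime.pow_right _ (Nat.coprime_comm.mp ((Nat.Prime.coprime_iff_not_dvd hp).mpr hr'))
  set c := ((r' : ZMod (p ^ n))⁻¹).val
  set ψ := φ ^ p ^ a with hψ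
  have hψu : ∀ m : ℕ, (ψ ^ m) u = u := by
    intro m
    rw [hψ, ← pow_mul]
    induction p ^ a * m with
    | zero => simp
    | succ i ih =>
      rw [pow_succ]
      show (φ ^ i) (φ u) = u
      rw [hfix, ih]
  refine ⟨c • ∑ i ∈ Finset.range r', (ψ ^ i) y, ?_, a, ?_⟩
  · rw [smul_comm, Finset.smul_sum, Finset.sum_congr rfl fun i _ => by
      rw [← map_nsmul, hy, hψu], Finset.sum_const, Finset.card_range, ← mul_nsmul']
    have : NeZero (p ^ n) := ⟨pow_ne_zero _ hp.ne_zero⟩
    have hc : ((c * r' : ℕ) : ZMod (p ^ n)) = 1 := by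
      rw [Nat.cast_mul, ZMod.natCast_zmod_val, mul_comm, ZMod.coe_mul_inv_eq_one _ hcop]
    rw [← Nat.cast_one, ZMod.natCast_eq_natCast_iff'] at hc
    have key : ∀ m : ℕ, m • u = (m % p ^ n) • u := fun m => by
      conv_lhs => rw [← Nat.mod_add_div m (p ^ n)]
      rw [add_nsmul, mul_comm (p ^ n) (m / p ^ n), mul_smul, hu, smul_zero, add_zero]
    rw [key, hc, ← key, one_nsmul]
  · rw [map_nsmul, map_sum]
    congr 1
    have h : ∀ i, ψ ((ψ ^ i) y) = (ψ ^ (i + 1)) y := fun i => by rw [pow_succ']; rfl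
    rw [Finset.sum_congr rfl fun i _ => h i]
    have h1 := Finset.sum_range_succ' (fun i => (ψ ^ i) y) r'
    rw [Finset.sum_range_succ, show (ψ ^ r') y = y by rw [hψ, ← pow_mul]; exact hry, pow_zero] at h1
    exact (add_right_cancel h1).symm

end Group

namespace FrobCurve

variable {k G : Type*} [Field k] [Field G] [Algebra k G] [IsAlgClosed k] [IsFunctionField k G]
  (C : FrobCurve k G) {p : ℕ}

/-- The Frobenius as an endomorphism of the classes. -/
def endo : AddMonoid.End (Pic0 k G) := DistribSMul.toAddMonoidHom (Pic0 k G) C.Φ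

theorem endo_apply (x : Pic0 k G) : C.endo x = C.Φ • x := rfl

theorem endo_pow_apply (i : ℕ) (x : Pic0 k G) : (C.endo ^ i) x = C.Φ ^ i • x := by
  induction i generalizing x with
  | zero => simp
  | succ i ih =>
    rw [pow_succ, pow_succ, mul_smul]
    exact ih (C.Φ • x)

theorem exists_linear_lt (c w : ℕ) (hp : p.Prime) : ∃ j : ℕ, c + w * j < p ^ j := by
  refine ⟨(c + w + 1) * 3, ?_⟩
  have h : c + w + 2 ≤ p ^ (c + w + 1) := Nat.lt_pow_self hp.one_lt
  rw [pow_mul]
  have h1 : c + w * ((c + w + 1) * 3) ≤ 3 * (c + w + 1) ^ 2 := by nlinarith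
  have h2 : 3 * (c + w + 1) ^ 2 < (c + w + 2) ^ 3 := by
    rw [show c + w + 2 = (c + w + 1) + 1 from rfl]
    generalize c + w + 1 = t
    ring_nf
    omega
  exact (h1.trans_lt h2).trans_le (Nat.pow_le_pow_left h 3)

/-- The classes killed by `p`: any finite set of them has at most `p ^ (2 g)` members. -/
theorem card_le_of_killed (hp : p.Prime) (hper : ∀ x : Pic0 k G, ∃ r, 0 < r ∧ C.Φ ^ r • x = x)
    (hdiv : ∀ x : Pic0 k G, ∃ y, p • y = x) (H : Finset (Pic0 k G))
    (hH : ∀ x ∈ H, p • x = 0) : H.card ≤ p ^ (2 * C.g) := by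
  classical
  have : Fact p.Prime := ⟨hp⟩
  choose per hper0 hper1 using hper
  have hr : 0 < ∏ x ∈ H, per x := Finset.prod_pos fun x _ => hper0 x
  set D := C.power _ hr with hD
  have hfixH : ∀ x ∈ H, D.endo x = x := fun x hx => by
    obtain ⟨m, hm⟩ := Finset.dvd_prod_of_mem per hx
    rw [endo_apply, hD, power_Φ, hm, pow_mul]
    clear hm
    induction m with
    | zero => simp
    | succ i ih => rw [pow_succ, mul_smul, hper1, ih]
  obtain ⟨w, hwg, J, hgrow⟩ := D.exists_growth hp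
  have hmem : ∀ j x, x ∈ kerPow p D.endo (p ^ j) ↔ p • x = 0 ∧ D.Φ ^ p ^ j • x = x := by
    intro j x
    rw [mem_kerPow]
    refine and_congr_right fun hx => ?_
    rw [sub_one_pow_apply hp _ _ hx, sub_eq_zero, endo_pow_apply]
  have hsub : ∀ j, (kerPow p D.endo (p ^ j) : Set (Pic0 k G)) ⊆ (D.tower hp j).Fix := by
    intro j x hx
    rw [SetLike.mem_coe, mem_fix, tower_Φ]
    exact ((hmem j x).mp hx).2
  have hfin : ∀ m, Finite (kerPow p D.endo m) := fun m =>
    ((D.tower hp m).finite_fix.subset ((SetLike.coe_subset_coe.mpr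
      (kerPow_le (Nat.lt_pow_self hp.one_lt).le)).trans (hsub m))).to_subtype
  -- the kernels stabilise
  obtain ⟨i, hi⟩ : ∃ i, kerPow p D.endo (i + 1) ≤ kerPow p D.endo i := by
    by_contra hcon
    push Not at hcon
    obtain ⟨j, hj⟩ := exists_linear_lt (padicValNat p (D.tower hp J).h + w * 0 + J) w hp
    have h1 := pow_dvd_natCard_kerPow hp (p ^ (J + j)) (hfin _) fun i _ => hcon i
    have h2 : p ^ p ^ (J + j) ∣ (D.tower hp (J + j)).h :=
      h1.trans (AddSubgroup.card_dvd_of_le (fun x hx => hsub _ hx))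
    have h3 := (padicValNat_dvd_iff_le (D.tower hp (J + j)).h_pos.ne').mp h2
    rw [hgrow] at h3
    have h4 : p ^ j ≤ p ^ (J + j) := Nat.pow_le_pow_right hp.pos (Nat.le_add_left _ _)
    omega
  set U := kerPow p D.endo i with hU
  have hUmax : ∀ m x, p • x = 0 → D.Φ ^ p ^ m • x = x → x ∈ U := fun m x hx hfx =>
    kerPow_stable hi _ ((hmem m x).mpr ⟨hx, hfx⟩)
  set j₀ := max i J with hj₀
  set τ := (D.tower hp j₀).endo with hτ
  have hτpow : ∀ m x, (τ ^ m) x = D.Φ ^ (p ^ j₀ * m) • x := fun m x => by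
    rw [hτ, endo_pow_apply, tower_Φ, ← pow_mul]
  have hUτ : ∀ x ∈ U, τ x = x := fun x hx => by
    have := ((hmem j₀ x).mp (kerPow_le ((Nat.lt_pow_self hp.one_lt).le.trans
      (Nat.pow_le_pow_right hp.pos (le_max_left i J))) hx)).2
    rwa [hτ, endo_apply, tower_Φ]
  -- the fixed roots
  obtain ⟨W, hW0, hWsucc⟩ : ∃ W : ℕ → AddSubgroup (Pic0 k G), W 0 = U ∧
      ∀ j x, x ∈ W (j + 1) ↔ p • x ∈ W j ∧ (τ ^ p ^ (j + 1)) x = x :=
    ⟨fun j => Nat.rec (motive := fun _ => AddSubgroup (Pic0 k G)) U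
      (fun m Wm => Wm.comap (nsmulAddMonoidHom p) ⊓
        AddMonoidHom.ker (τ ^ p ^ (m + 1) - 1 : AddMonoid.End (Pic0 k G))) j, rfl,
      fun j x => by
        refine AddSubgroup.mem_inf.trans (and_congr_right fun _ => ?_)
        exact AddMonoidHom.mem_ker.trans sub_eq_zero⟩
  have hτU : ∀ m, ∀ x ∈ U, (τ ^ m) x = x := fun m x hx => by
    induction m with
    | zero => simp
    | succ m ihm => rw [pow_succ]; show (τ ^ m) (τ x) = x; rw [hUτ x hx, ihm]
  have hW : ∀ j, ∀ x ∈ W j, p ^ (j + 1) • x = 0 ∧ (τ ^ p ^ j) x = x := by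
    intro j
    induction j with
    | zero =>
      rw [hW0]
      exact fun x hx => ⟨by rw [zero_add, pow_one]; exact hx.1, hτU _ x hx⟩
    | succ j ih =>
      intro x hx
      rw [hWsucc] at hx
      exact ⟨by rw [pow_succ, mul_smul]; exact (ih _ hx.1).1, hx.2⟩
  have hWfix : ∀ j, W j ≤ (D.tower hp (j₀ + j)).Fix := fun j x hx => by
    rw [mem_fix, tower_Φ, pow_add, ← hτpow]
    exact (hW j x hx).2
  have hWfin : ∀ j : ℕ, Finite ↥(W j) := fun j => by
    exact ((D.tower hp (j₀ + j)).finite_fix.subset fun x hx => hWfix j hx).to_subtype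
  have hUW : ∀ j, U ≤ W j := by
    intro j
    induction j with
    | zero => exact hW0.ge
    | succ j ih =>
      intro x hx
      rw [hWsucc]
      exact ⟨by rw [show p • x = 0 from hx.1]; exact zero_mem _, hτU _ x hx⟩
  have hsurj : ∀ j, ∀ y ∈ W j, ∃ z ∈ W (j + 1), p • z = y := by
    intro j y hy
    obtain ⟨z₀, hz₀⟩ := hdiv y
    have hper' : ((τ ^ p ^ j) ^ per z₀) z₀ = z₀ := by
      rw [← pow_mul, hτpow, hD, power_Φ, ← pow_mul, show (∏ x ∈ H, per x) * (p ^ j₀ * (p ^ j * per z₀))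
        = per z₀ * ((∏ x ∈ H, per x) * p ^ j₀ * p ^ j) by ring, pow_mul]
      generalize (∏ x ∈ H, per x) * p ^ j₀ * p ^ j = e
      induction e with
      | zero => simp
      | succ e ihe => rw [pow_succ, mul_smul, hper1, ihe]
    obtain ⟨z, hz, a, ha⟩ :=
      exists_root_fixed hp (τ ^ p ^ j) (hW j y hy).1 (hW j y hy).2 hz₀ (hper0 z₀) hper'
    refine ⟨z, (hWsucc j z).mpr ⟨hz.symm ▸ hy, ?_⟩, hz⟩
    set φ := τ ^ p ^ j with hφ
    have hd1 : p • (φ z - z) = 0 := by
      rw [nsmul_sub, ← map_nsmul, hz, (hW j y hy).2, sub_self]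
    have hd2 : (φ ^ p ^ a) (φ z - z) = φ z - z := by
      rw [map_sub, ha]
      congr 1
      show ((φ ^ p ^ a) * φ) z = φ z
      rw [← pow_succ, pow_succ']
      show φ ((φ ^ p ^ a) z) = φ z
      rw [ha]
    have hdU : φ z - z ∈ U := by
      refine hUmax (j₀ + (j + a)) _ hd1 ?_
      rw [pow_add, ← hτpow, pow_add, pow_mul]
      exact hd2
    have hiter : ∀ m : ℕ, (φ ^ m) z = z + m • (φ z - z) := by
      intro m
      induction m with
      | zero => simp
      | succ m ihm =>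
        rw [pow_succ']
        show φ ((φ ^ m) z) = _
        rw [ihm, map_add, map_nsmul, hτU _ _ hdU, succ_nsmul]
        abel
    rw [pow_succ, pow_mul, hiter, hd1, add_zero]
  have hcard : ∀ j, Nat.card U ^ (j + 1) ≤ Nat.card ↥(W j) := by
    intro j
    induction j with
    | zero => rw [hW0, zero_add, pow_one]
    | succ j ih =>
      have := hWfin (j + 1)
      let f : ↥(W (j + 1)) →+ ↥(W j) := AddMonoidHom.mk'
        (fun x => ⟨p • (x : Pic0 k G), ((hWsucc j _).mp x.2).1⟩)
        fun x y => Subtype.ext (by simp only [AddSubgroup.coe_add, nsmul_add])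
      have hf : Function.Surjective f := fun ⟨y, hy⟩ => by
        obtain ⟨z, hz, hzy⟩ := hsurj j y hy
        exact ⟨⟨z, hz⟩, Subtype.ext hzy⟩
      have hker : Nat.card U ≤ Nat.card f.ker := Nat.card_le_card_of_injective
        (fun u => (⟨⟨(u : Pic0 k G), hUW _ u.2⟩, by
          rw [AddMonoidHom.mem_ker]
          refine Subtype.ext ?_
          show p • (u : Pic0 k G) = 0
          exact u.2.1⟩ : ↥f.ker))
        fun u v h => by
          refine Subtype.ext ?_
          have := congrArg (fun x : ↥f.ker => ((x : ↥(W (j + 1))) : Pic0 k G)) h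
          exact this
      calc Nat.card U ^ (j + 1 + 1) = Nat.card U ^ (j + 1) * Nat.card U := pow_succ _ _
        _ ≤ Nat.card (W j) * Nat.card f.ker := Nat.mul_le_mul ih hker
        _ = Nat.card (W (j + 1)) := by
          rw [← Nat.card_congr (QuotientAddGroup.quotientKerEquivOfSurjective f hf).toEquiv,
            ← AddSubgroup.card_eq_card_quotient_mul_card_addSubgroup]
  have : Finite U := hfin i
  obtain ⟨a, ha⟩ := natCard_eq_pow_of_nsmul_eq_zero hp 1 U fun x hx => by rw [pow_one]; exact hx.1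
  have haw : a ≤ w := by
    by_contra hlt
    set c := padicValNat p (D.tower hp J).h + w * (j₀ - J) with hc
    have := hWfin c
    obtain ⟨e, he⟩ := natCard_eq_pow_of_nsmul_eq_zero hp (c + 1) (W c) fun x hx => (hW c x hx).1
    have h1 : a * (c + 1) ≤ e := (Nat.pow_le_pow_iff_right hp.one_lt).mp (by
      rw [pow_mul, ← ha, ← he]; exact hcard c)
    have h2 : p ^ e ∣ (D.tower hp (j₀ + c)).h := he ▸ AddSubgroup.card_dvd_of_le (hWfix c)
    have h3 := (padicValNat_dvd_iff_le (D.tower hp (j₀ + c)).h_pos.ne').mp h2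
    rw [show j₀ + c = J + (j₀ - J + c) by omega, hgrow, mul_add, ← add_assoc, ← hc] at h3
    have h4 : (w + 1) * (c + 1) ≤ a * (c + 1) := Nat.mul_le_mul_right _ (by omega)
    rw [add_mul, one_mul, mul_add, mul_one] at h4
    omega
  calc H.card = (H : Set (Pic0 k G)).ncard := (Set.ncard_coe_finset H).symm
    _ ≤ (U : Set (Pic0 k G)).ncard := Set.ncard_le_ncard (fun x hx => hUmax 0 x (hH x hx) (by
        rw [pow_zero, pow_one]; exact hfixH x hx)) (Set.toFinite _)
    _ = p ^ a := ha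
    _ ≤ p ^ (2 * C.g) := Nat.pow_le_pow_right hp.pos (haw.trans hwg)

/-- There are at most `p ^ (2 g n)` classes killed by `p ^ n`. -/
theorem natCard_killed_le (hp : p.Prime) (hper : ∀ x : Pic0 k G, ∃ r, 0 < r ∧ C.Φ ^ r • x = x)
    (hdiv : ∀ x : Pic0 k G, ∃ y, p • y = x) (n : ℕ) :
    {x : Pic0 k G | p ^ n • x = 0}.Finite ∧
      {x : Pic0 k G | p ^ n • x = 0}.ncard ≤ p ^ (2 * C.g * n) := by
  classical
  have h1 : {x : Pic0 k G | p • x = 0}.Finite ∧
      {x : Pic0 k G | p • x = 0}.ncard ≤ p ^ (2 * C.g) := by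
    have hfin : {x : Pic0 k G | p • x = 0}.Finite := by
      by_contra hinf
      obtain ⟨H, hH, hcard⟩ := Set.Infinite.exists_subset_card_eq hinf (p ^ (2 * C.g) + 1)
      have := C.card_le_of_killed hp hper hdiv H fun x hx => hH hx
      omega
    refine ⟨hfin, ?_⟩
    rw [Set.ncard_eq_toFinset_card _ hfin]
    exact C.card_le_of_killed hp hper hdiv _ fun x hx => hfin.mem_toFinset.mp hx
  induction n with
  | zero => simp
  | succ n ih =>
    let K : ℕ → AddSubgroup (Pic0 k G) := fun m =>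
      AddMonoidHom.ker (nsmulAddMonoidHom (α := Pic0 k G) (p ^ m))
    let f : K (n + 1) →+ K n := AddMonoidHom.mk'
      (fun x => ⟨p • (x : Pic0 k G), show p ^ n • (p • (x : Pic0 k G)) = 0 by
        rw [← mul_smul, ← pow_succ]; exact x.2⟩)
      fun x y => Subtype.ext (by exact smul_add p (x : Pic0 k G) (y : Pic0 k G))
    have hf : Function.Surjective f := fun ⟨y, hy⟩ => by
      obtain ⟨z, hz⟩ := hdiv y
      refine ⟨⟨z, show p ^ (n + 1) • z = 0 by rw [pow_succ, mul_smul, hz]; exact hy⟩, Subtype.ext hz⟩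
    have : Finite (K n) := ih.1.to_subtype
    have : Finite f.ker := by
      have := h1.1.to_subtype
      exact Finite.of_injective (β := {x : Pic0 k G | p • x = 0})
        (fun x => ⟨((x : K (n + 1)) : Pic0 k G), congrArg Subtype.val x.2⟩)
        fun x y h => Subtype.ext (Subtype.ext (Subtype.mk.inj h))
    have : Finite (K (n + 1) ⧸ f.ker) :=
      Finite.of_equiv _ (QuotientAddGroup.quotientKerEquivOfSurjective f hf).toEquiv.symm
    have : Finite (K (n + 1)) := Nat.finite_of_card_ne_zero (by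
      rw [AddSubgroup.card_eq_card_quotient_mul_card_addSubgroup f.ker]
      exact mul_ne_zero Nat.card_pos.ne' Nat.card_pos.ne')
    refine ⟨Set.toFinite (K (n + 1) : Set (Pic0 k G)), ?_⟩
    have hker : Nat.card f.ker ≤ p ^ (2 * C.g) := by
      have := h1.1.to_subtype
      refine (Nat.card_le_card_of_injective
        (fun x : f.ker => (⟨((x : K (n + 1)) : Pic0 k G), congrArg Subtype.val x.2⟩ :
          {x : Pic0 k G | p • x = 0}))
        fun x y h => Subtype.ext (Subtype.ext (Subtype.mk.inj h))).trans h1.2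
    calc Nat.card (K (n + 1)) = Nat.card (K n) * Nat.card f.ker := by
          rw [← Nat.card_congr (QuotientAddGroup.quotientKerEquivOfSurjective f hf).toEquiv,
            ← AddSubgroup.card_eq_card_quotient_mul_card_addSubgroup]
      _ ≤ p ^ (2 * C.g * n) * p ^ (2 * C.g) := Nat.mul_le_mul ih.2 hker
      _ = p ^ (2 * C.g * (n + 1)) := by rw [← pow_add]; ring_nf

end FrobCurve

end Fermat.Agent.ResidualTorsion

end
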