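import Fermat.Agent.ResidualTorsion.Descent
import Fermat.Agent.FunctionFieldRR.RationalBase
import Fermat.Agent.FunctionFieldRR.RiemannRochSpace
import Fermat.Prelude.Def_AlgebraicCurve_BaseChangeGalois

/-!
# Rational classes and effective divisors of a curve with a Frobenius

A fixed class has a fixed effective representative; there are finitely many fixed classes, and in
degree `d ≥ 2 g - 1` the fixed effective divisors number `h (Q ^ (d + 1 - g) - 1) / (Q - 1)`.
-/

set_option autoImplicit false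

noncomputable section

open AlgebraicCurve Fermat.Agent.FunctionFieldRR

namespace Fermat.Agent.ResidualTorsion

/-- A function field over `k` with a Frobenius for `Q` and a rational place. -/
structure FrobCurve (k G : Type*) [Field k] [Field G] [Algebra k G] where
  Φ : SemilinearAut k G
  Q : ℕ
  one_lt : 1 < Q
  base : ∀ c, SemilinearAut.baseAut Φ c = c ^ Q
  natCard_const : ∀ m : ℕ, 0 < m → Nat.card {a : k // a ^ (Q ^ m) = a} = Q ^ m
  coord : ℤ → G →ₗ[k] k
  coord_sep : ∀ x, (∀ i, coord i x = 0) → x = 0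
  coord_smul : ∀ i x, coord i (Φ • x) = coord i x ^ Q
  inf : Place k G
  inf_fix : Φ • inf = inf
  g : ℕ
  rr : ∀ D : Divisor k G, 2 * (g : ℤ) - 1 ≤ Divisor.degree D →
    (Module.finrank k (riemannRochSpace D) : ℤ) = Divisor.degree D + 1 - g
  riemann : ∀ D : Divisor k G,
    Divisor.degree D + 1 - g ≤ (Module.finrank k (riemannRochSpace D) : ℤ)
  finite_fixed : ∀ m : ℕ, 0 < m → {P : Place k G | Φ ^ m • P = P}.Finite

variable {k G : Type*} [Field k] [Field G] [Algebra k G] [IsAlgClosed k] [IsFunctionField k G]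

theorem smul_divisorOf (s : SemilinearAut k G) (f : G) :
    s • divisorOf (K := k) f = divisorOf (s • f) := Finsupp.ext fun P => by
  rw [SemilinearAut.divisor_smul_apply, divisorOf_apply, divisorOf_apply]
  have := SemilinearAut.ord_smul s (s⁻¹ • P) f
  rw [smul_inv_smul] at this
  exact this.symm

theorem divisorOf_mul {f f' : G} (hf : f ≠ 0) (hf' : f' ≠ 0) :
    divisorOf (K := k) (f * f') = divisorOf f + divisorOf f' :=
  Finsupp.ext fun P => by simp [P.ord_mul hf hf']

theorem divisorOf_algebraMap (c : k) : divisorOf (K := k) (algebraMap k G c) = 0 :=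
  Finsupp.ext fun P => by simp [ord_algebraMap]

theorem mem_rrs_iff_divisor {D : Divisor k G} {f : G} (hf : f ≠ 0) :
    f ∈ riemannRochSpace D ↔ 0 ≤ D + divisorOf f := by
  rw [mem_riemannRochSpace, Finsupp.le_def]
  refine forall_congr' fun P => ⟨fun h => ?_, fun h => Or.inr ?_⟩
  · simp only [Finsupp.add_apply, Finsupp.zero_apply, divisorOf_apply]
    linarith [h.resolve_left hf]
  · simp only [Finsupp.add_apply, Finsupp.zero_apply, divisorOf_apply] at h
    linarith

theorem exists_const_of_divisor_eq {f f' : G} (hf : f ≠ 0) (hf' : f' ≠ 0)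
    (h : divisorOf (K := k) f = divisorOf f') : ∃ c : k, f' = algebraMap k G c * f := by
  obtain ⟨c, hc⟩ := exists_algebraMap_eq_of_forall_ord_nonneg (K := k) (f := f' * f⁻¹) fun P => by
    rw [P.ord_mul hf' (inv_ne_zero hf), P.ord_inv]
    have := DFunLike.congr_fun h P
    simp only [divisorOf_apply] at this
    omega
  exact ⟨c, by rw [← hc, mul_assoc, inv_mul_cancel₀ hf, mul_one]⟩

theorem eq_zero_of_nonneg {D : Divisor k G} (h : 0 ≤ D) (hd : Divisor.degree D = 0) : D = 0 := by
  have hsum : Divisor.degree D = D.sum fun _ m => m := degree_eq_sum D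
  rw [hd] at hsum
  refine Finsupp.ext fun P => ?_
  by_contra hne
  have hpos : 0 < D.sum fun _ m => m := Finset.sum_pos'
    (fun Q _ => by simpa using Finsupp.le_def.mp h Q)
    ⟨P, Finsupp.mem_support_iff.mpr hne,
      lt_of_le_of_ne (by simpa using Finsupp.le_def.mp h P) (Ne.symm hne)⟩
  omega

namespace FrobCurve

variable (C : FrobCurve k G)

theorem base_pow (r : ℕ) (c : k) : SemilinearAut.baseAut (C.Φ ^ r) c = c ^ (C.Q ^ r) := by
  induction r with
  | zero => simp
  | succ r ih =>
    rw [pow_succ', SemilinearAut.baseAut_mul, RingAut.mul_apply, ih, C.base, ← pow_mul, pow_succ]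

/-- The curve over the extension of degree `r`. -/
def power (r : ℕ) (hr : 0 < r) : FrobCurve k G where
  Φ := C.Φ ^ r
  Q := C.Q ^ r
  one_lt := Nat.one_lt_pow hr.ne' C.one_lt
  base := C.base_pow r
  natCard_const m hm := by rw [← pow_mul]; exact C.natCard_const _ (Nat.mul_pos hr hm)
  coord := C.coord
  coord_sep := C.coord_sep
  coord_smul i x := by
    clear hr
    induction r generalizing x with
    | zero => simp
    | succ r ih =>
      rw [pow_succ', mul_smul, C.coord_smul, ih, ← pow_mul, pow_succ]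
  inf := C.inf
  inf_fix := by
    clear hr
    induction r with
    | zero => simp
    | succ r ih => rw [pow_succ', mul_smul, ih, C.inf_fix]
  g := C.g
  rr := C.rr
  riemann := C.riemann
  finite_fixed m hm := by
    simp only [← pow_mul]
    exact C.finite_fixed _ (Nat.mul_pos hr hm)

@[simp] theorem power_Φ (r : ℕ) (hr : 0 < r) : (C.power r hr).Φ = C.Φ ^ r := rfl

@[simp] theorem power_Q (r : ℕ) (hr : 0 < r) : (C.power r hr).Q = C.Q ^ r := rfl

@[simp] theorem power_g (r : ℕ) (hr : 0 < r) : (C.power r hr).g = C.g := rfl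

/-- The class of a divisor, moved to degree `0` by the rational place. -/
def cls : Divisor k G →+ Pic0 k G where
  toFun D := Pic0.mk ⟨D - Finsupp.single C.inf (Divisor.degree D), by
    rw [Divisor.mem_degZero, map_sub, Divisor.degree_single, deg_eq_one]
    simp⟩
  map_zero' := by
    rw [← Pic0.mk_zero]
    exact congrArg Pic0.mk (Subtype.ext (by simp))
  map_add' D D' := by
    rw [← Pic0.mk_add]
    exact congrArg Pic0.mk (Subtype.ext (by
      simp only [map_add, Finsupp.single_add, AddSubgroup.coe_add]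
      abel))

theorem cls_degZero (D : Divisor.degZero (K := k) (F := G)) :
    C.cls (D : Divisor k G) = Pic0.mk D :=
  congrArg Pic0.mk (Subtype.ext (by simp [Divisor.mem_degZero.mp D.2]))

theorem cls_surjective : Function.Surjective C.cls := fun x => by
  obtain ⟨D, rfl⟩ := Pic0.mk_surjective x
  exact ⟨_, C.cls_degZero D⟩

theorem cls_smul (D : Divisor k G) : C.cls (C.Φ • D) = C.Φ • C.cls D :=
  congrArg Pic0.mk (Subtype.ext (by
    simp [smul_sub, C.inf_fix]))

theorem cls_eq_zero {D : Divisor k G} : C.cls D = 0 ↔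
    ∃ f : G, f ≠ 0 ∧ D - Finsupp.single C.inf (Divisor.degree D) = divisorOf f := by
  show (QuotientAddGroup.mk _ : Pic0 k G) = 0 ↔ _
  rw [QuotientAddGroup.eq_zero_iff, AddSubgroup.mem_addSubgroupOf, Divisor.mem_principal]
  exact ⟨fun ⟨f, hf, h⟩ => ⟨f, hf, Finsupp.ext h⟩,
    fun ⟨f, hf, h⟩ => ⟨f, hf, fun P => DFunLike.congr_fun h P⟩⟩

theorem cls_eq_iff {D D' : Divisor k G} (hd : Divisor.degree D = Divisor.degree D') :
    C.cls D = C.cls D' ↔ ∃ f : G, f ≠ 0 ∧ D = D' + divisorOf f := by
  rw [← sub_eq_zero, ← map_sub, C.cls_eq_zero, map_sub, hd, sub_self, Finsupp.single_zero, sub_zero]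
  exact exists_congr fun f => and_congr_right fun _ => sub_eq_iff_eq_add'

theorem finrank_le_one {D : Divisor k G} (hd : Divisor.degree D = 0) :
    Module.finrank k (riemannRochSpace D) ≤ 1 := by
  by_cases h : ∃ f ∈ riemannRochSpace D, f ≠ 0
  · obtain ⟨f, hf, hf0⟩ := h
    have hz : D + divisorOf f = 0 := eq_zero_of_nonneg ((mem_rrs_iff_divisor hf0).mp hf)
      (by rw [map_add, hd, degree_divisorOf, add_zero])
    refine _root_.finrank_le_one (⟨f, hf⟩ : riemannRochSpace D) fun ⟨f', hf'⟩ => ?_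
    rcases eq_or_ne f' 0 with rfl | hf'0
    · exact ⟨0, by ext; simp⟩
    obtain ⟨c, hc⟩ := exists_const_of_divisor_eq (k := k) hf0 hf'0
      (add_left_cancel ((hz).trans (eq_zero_of_nonneg ((mem_rrs_iff_divisor hf'0).mp hf')
        (by rw [map_add, hd, degree_divisorOf, add_zero])).symm))
    exact ⟨c, by ext; simp [hc, Algebra.smul_def]⟩
  · push Not at h
    rw [(Submodule.eq_bot_iff _).mpr h, finrank_bot]
    exact zero_le_one

/-- Every class has a translate with exactly one effective member. -/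
theorem exists_unique_rep {D : Divisor k G} (hd : Divisor.degree D = 0) :
    ∃ d : ℕ, d ≤ C.g ∧
      Module.finrank k (riemannRochSpace (D + Finsupp.single C.inf (d : ℤ))) = 1 := by
  classical
  have hdeg : ∀ d : ℕ, Divisor.degree (D + Finsupp.single C.inf (d : ℤ)) = d := fun d => by
    rw [map_add, hd, Divisor.degree_single, deg_eq_one]; simp
  have hfin : ∀ d : ℕ, FiniteDimensional k (riemannRochSpace (D + Finsupp.single C.inf (d : ℤ))) :=
    fun d => inferInstance
  have hex : ∃ d : ℕ, 0 < Module.finrank k (riemannRochSpace (D + Finsupp.single C.inf (d : ℤ))) :=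
    ⟨C.g, by have := C.riemann (D + Finsupp.single C.inf ((C.g : ℕ) : ℤ)); rw [hdeg] at this; omega⟩
  refine ⟨Nat.find hex, Nat.find_min' hex (by
    have := C.riemann (D + Finsupp.single C.inf ((C.g : ℕ) : ℤ)); rw [hdeg] at this; omega), ?_⟩
  have hspec := Nat.find_spec hex
  refine le_antisymm ?_ hspec
  rcases Nat.eq_zero_or_pos (Nat.find hex) with h0 | hpos
  · rw [h0, Nat.cast_zero, Finsupp.single_zero, add_zero]
    exact finrank_le_one hd
  · have hmin := Nat.find_min hex (Nat.sub_lt hpos one_pos)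
    have hstep := finrank_le_add_single (D + Finsupp.single C.inf ((Nat.find hex - 1 : ℕ) : ℤ)) C.inf
    rw [add_assoc, ← Finsupp.single_add,
      show ((Nat.find hex - 1 : ℕ) : ℤ) + 1 = (Nat.find hex : ℤ) by omega] at hstep
    omega

theorem cls_add_single (D : Divisor k G) (m : ℤ) : C.cls (D + Finsupp.single C.inf m) = C.cls D := by
  rw [map_add, add_eq_left]
  refine C.cls_eq_zero.mpr ⟨1, one_ne_zero, ?_⟩
  rw [Divisor.degree_single, deg_eq_one, Nat.cast_one, mul_one, sub_self]
  exact (Finsupp.ext fun P => by simp).symm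

/-- Fixed effective divisors of degree `d`. -/
def Eff (d : ℕ) : Set (Divisor k G) :=
  {D | 0 ≤ D ∧ Divisor.degree D = d ∧ C.Φ • D = D}

theorem pow_smul_eq_of_fixed {D : Divisor k G} (h : C.Φ • D = D) (i : ℕ) : C.Φ ^ i • D = D := by
  induction i with
  | zero => simp
  | succ i ih => rw [pow_succ, mul_smul, h, ih]

theorem exists_period_of_mem_support {d : ℕ} {D : Divisor k G} (hD : D ∈ C.Eff d) {P : Place k G}
    (hP : P ∈ D.support) : ∃ m : ℕ, 0 < m ∧ m ≤ d ∧ C.Φ ^ m • P = P := by
  obtain ⟨h0, hd, hfix⟩ := hD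
  have hcard : D.support.card ≤ d := by
    have h1 : ((D.support.card : ℕ) : ℤ) ≤ Divisor.degree D := by
      rw [degree_eq_sum, Finsupp.sum, Finset.cast_card]
      exact Finset.sum_le_sum fun Q hQ => by
        have := Finsupp.le_def.mp h0 Q
        rw [Finsupp.mem_support_iff] at hQ
        simp at this
        omega
    omega
  have hmem : ∀ i : ℕ, C.Φ ^ i • P ∈ D.support := fun i => by
    rw [Finsupp.mem_support_iff] at hP ⊢
    rwa [← C.pow_smul_eq_of_fixed hfix i, SemilinearAut.divisor_smul_apply_smul]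
  obtain ⟨a, ha, b, hb, hab, heq⟩ := Finset.exists_ne_map_eq_of_card_lt_of_maps_to
    (s := Finset.range (d + 1)) (t := D.support) (by rw [Finset.card_range]; omega)
    (f := fun i => C.Φ ^ i • P) fun i _ => hmem i
  wlog hlt : a < b generalizing a b
  · exact this b hb a ha hab.symm heq.symm (by omega)
  refine ⟨b - a, by omega, by simp at hb; omega, MulAction.injective (C.Φ ^ a) ?_⟩
  show C.Φ ^ a • C.Φ ^ (b - a) • P = C.Φ ^ a • P
  rw [← mul_smul, ← pow_add, Nat.add_sub_cancel' hlt.le]
  exact heq.symm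

theorem finite_eff (d : ℕ) : (C.Eff d).Finite := by
  classical
  have hS : (⋃ m ∈ Finset.Icc 1 d, {P : Place k G | C.Φ ^ m • P = P}).Finite :=
    Set.Finite.biUnion (Finset.finite_toSet _) fun m hm => C.finite_fixed m (by simp at hm; omega)
  have hbox := Set.Finite.pi (t := fun _ : hS.toFinset => Set.Icc (0 : ℤ) d)
    fun _ => Set.finite_Icc _ _
  refine Set.Finite.of_finite_image (f := fun D (P : hS.toFinset) => D (P : Place k G))
    (hbox.subset ?_) ?_
  · rintro _ ⟨D, hD, rfl⟩ P -
    refine ⟨by simpa using Finsupp.le_def.mp hD.1 (P : Place k G), ?_⟩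
    have h1 : D (P : Place k G) ≤ Divisor.degree D := by
      rw [degree_eq_sum, Finsupp.sum]
      by_cases hP : (P : Place k G) ∈ D.support
      · exact Finset.single_le_sum (fun Q _ => by simpa using Finsupp.le_def.mp hD.1 Q) hP
      · rw [Finsupp.notMem_support_iff.mp hP]
        exact Finset.sum_nonneg fun Q _ => by simpa using Finsupp.le_def.mp hD.1 Q
    rw [hD.2.1] at h1
    exact h1
  · intro D hD D' hD' h
    refine Finsupp.ext fun P => ?_
    by_cases hP : P ∈ hS.toFinset
    · exact congrFun h ⟨P, hP⟩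
    · have hz : ∀ E ∈ C.Eff d, E P = 0 := fun E hE => by
        by_contra hne
        obtain ⟨m, hm0, hmd, hm⟩ := C.exists_period_of_mem_support hE (Finsupp.mem_support_iff.mpr hne)
        exact hP (hS.mem_toFinset.mpr
          (Set.mem_biUnion (Finset.mem_Icc.mpr ⟨hm0, hmd⟩) hm))
      rw [hz D hD, hz D' hD']

theorem exists_eff {x : Pic0 k G} (hx : C.Φ • x = x) :
    ∃ d ≤ C.g, ∃ E ∈ C.Eff d, C.cls E = x := by
  obtain ⟨D, rfl⟩ := Pic0.mk_surjective x
  obtain ⟨d, hdg, h1⟩ := C.exists_unique_rep (Divisor.mem_degZero.mp D.2)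
  set D' : Divisor k G := (D : Divisor k G) + Finsupp.single C.inf (d : ℤ) with hD'
  obtain ⟨⟨f, hf⟩, hne, hgen⟩ := finrank_eq_one_iff'.mp h1
  have hf0 : f ≠ 0 := fun h => hne (Subtype.ext h)
  have hdeg : Divisor.degree D' = d := by
    rw [hD', map_add, Divisor.mem_degZero.mp D.2, Divisor.degree_single, deg_eq_one]; simp
  have hclsD : C.cls D' = Pic0.mk D := by
    rw [hD', C.cls_add_single, C.cls_degZero]
  have hcls : C.cls (D' + divisorOf f) = Pic0.mk D := by
    rw [← hclsD, C.cls_eq_iff (by rw [map_add, degree_divisorOf, add_zero])]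
    exact ⟨f, hf0, rfl⟩
  refine ⟨d, hdg, D' + divisorOf f, ⟨(mem_rrs_iff_divisor hf0).mp hf,
    by rw [map_add, degree_divisorOf, add_zero, hdeg], ?_⟩, hcls⟩
  -- the fixed class has a fixed effective member
  rw [← hcls, ← C.cls_smul, C.cls_eq_iff (by rw [SemilinearAut.degree_smul])] at hx
  obtain ⟨w, hw0, hw⟩ := hx
  have hmem : f * w ∈ riemannRochSpace D' := by
    rw [mem_rrs_iff_divisor (mul_ne_zero hf0 hw0), divisorOf_mul hf0 hw0, ← add_assoc, ← hw,
      SemilinearAut.divisor_smul_def]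
    intro P
    obtain ⟨P', rfl⟩ : ∃ P', C.Φ • P' = P := ⟨C.Φ⁻¹ • P, smul_inv_smul _ _⟩
    rw [Finsupp.mapDomain_apply (MulAction.injective C.Φ)]
    exact ((mem_rrs_iff_divisor hf0).mp hf) P'
  obtain ⟨c, hc⟩ := hgen ⟨_, hmem⟩
  have hc' : c • f = f * w := congrArg Subtype.val hc
  have hc0 : c ≠ 0 := fun h => mul_ne_zero hf0 hw0 (by rw [← hc', h, zero_smul])
  have hw' : w = algebraMap k G c := by
    rw [Algebra.smul_def, mul_comm (algebraMap k G c)] at hc'
    exact (mul_left_cancel₀ hf0 hc').symm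
  rw [hw, hw', divisorOf_algebraMap, add_zero]

/-- Fixed classes. -/
def Fix : AddSubgroup (Pic0 k G) where
  carrier := {x | C.Φ • x = x}
  zero_mem' := smul_zero _
  add_mem' {x y} hx hy := by simp only [Set.mem_ofPred_eq] at *; rw [smul_add, hx, hy]
  neg_mem' {x} hx := by simp only [Set.mem_ofPred_eq] at *; rw [smul_neg, hx]

theorem mem_fix {x : Pic0 k G} : x ∈ C.Fix ↔ C.Φ • x = x := Iff.rfl

theorem finite_fix : (C.Fix : Set (Pic0 k G)).Finite :=
  ((Set.Finite.biUnion (Finset.range (C.g + 1)).finite_toSet fun d _ => C.finite_eff d).image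
    C.cls).subset fun x hx => by
    obtain ⟨d, hd, E, hE, rfl⟩ := C.exists_eff hx
    exact ⟨E, Set.mem_biUnion (Finset.mem_range.mpr (Nat.lt_succ_of_le hd)) hE, rfl⟩

/-- The class number. -/
def h : ℕ := Nat.card C.Fix

theorem h_pos : 0 < C.h := by
  have : Finite C.Fix := C.finite_fix
  exact Nat.card_pos

/-- A scalar normalisation of a semi-invariant function. -/
theorem exists_fixed_scaling {f : G} {c : k} (hc : c ≠ 0)
    (h : C.Φ • f = algebraMap k G c * f) :
    ∃ a : k, a ≠ 0 ∧ C.Φ • (algebraMap k G a * f) = algebraMap k G a * f := by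
  obtain ⟨a, ha⟩ := IsAlgClosed.exists_pow_nat_eq c⁻¹ (Nat.sub_pos_of_lt C.one_lt)
  have ha0 : a ≠ 0 := fun h => by
    rw [h, zero_pow (Nat.sub_pos_of_lt C.one_lt).ne'] at ha
    exact inv_ne_zero hc ha.symm
  refine ⟨a, ha0, ?_⟩
  rw [smul_mul', SemilinearAut.smul_algebraMap, C.base, h, ← mul_assoc, ← map_mul]
  congr 2
  rw [← Nat.sub_add_cancel C.one_lt.le, pow_succ, ha]
  field_simp

/-- The count of fixed effective divisors in large degree. -/
theorem natCard_eff {d : ℕ} (hd : 2 * (C.g : ℤ) - 1 ≤ d) :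
    (C.Q - 1) * Nat.card (C.Eff d) = C.h * (C.Q ^ (d + 1 - C.g) - 1) := by
  classical
  have : Finite C.Fix := C.finite_fix
  have : Finite (C.Eff d) := C.finite_eff d
  have := Fintype.ofFinite C.Fix
  let φ : C.Eff d → C.Fix := fun D => ⟨C.cls D, by
    show C.Φ • _ = _
    rw [← C.cls_smul, D.2.2.2]⟩
  rw [← Nat.card_congr (Equiv.sigmaFiberEquiv φ), Nat.card_sigma, Finset.mul_sum]
  suffices hfib : ∀ x : C.Fix,
      (C.Q - 1) * Nat.card {D // φ D = x} = C.Q ^ (d + 1 - C.g) - 1 by
    rw [Finset.sum_congr rfl fun x _ => hfib x, Finset.sum_const, smul_eq_mul, Finset.card_univ,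
      ← Nat.card_eq_fintype_card]
    rfl
  rintro ⟨x, hx⟩
  obtain ⟨e, -, E, ⟨-, hEd, hEf⟩, rfl⟩ := C.exists_eff hx
  set D₀ : Divisor k G := E + Finsupp.single C.inf ((d : ℤ) - e) with hD₀
  have hD₀f : C.Φ • D₀ = D₀ := by
    rw [hD₀, smul_add, hEf, SemilinearAut.smul_single, C.inf_fix]
  have hD₀d : Divisor.degree D₀ = d := by
    rw [hD₀, map_add, hEd, Divisor.degree_single, deg_eq_one]; ring
  have hD₀c : C.cls D₀ = C.cls E := C.cls_add_single _ _
  -- nonzero fixed sections
  set V := riemannRochSpace D₀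
  have hstab : ∀ f ∈ V, C.Φ • f ∈ V := fun f hf => by
    rcases eq_or_ne f 0 with rfl | hf0
    · rw [smul_zero]; exact zero_mem _
    rw [mem_rrs_iff_divisor ((smul_ne_zero_iff_ne _).mpr hf0), ← smul_divisorOf, ← hD₀f, ← smul_add,
      SemilinearAut.divisor_smul_def]
    intro P
    obtain ⟨P', rfl⟩ : ∃ P', C.Φ • P' = P := ⟨C.Φ⁻¹ • P, smul_inv_smul _ _⟩
    rw [Finsupp.mapDomain_apply (MulAction.injective C.Φ)]
    exact ((mem_rrs_iff_divisor hf0).mp hf) P'
  let act : V → V := fun v => ⟨C.Φ • (v : G), hstab v v.2⟩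
  have hdim : Module.finrank k V = d + 1 - C.g := by
    have h2 : (Module.finrank k V : ℤ) = (d : ℤ) + 1 - C.g :=
      hD₀d ▸ C.rr D₀ (by rw [hD₀d]; exact hd)
    omega
  have hconst : Nat.card {a : k // a ^ C.Q = a} = C.Q := by
    simpa using C.natCard_const 1 one_pos
  have hW : Nat.card {v : V // act v = v} = C.Q ^ (d + 1 - C.g) := by
    rw [natCard_fixed act (Q := C.Q) (fun i => (C.coord i).comp V.subtype)
      (fun v hv => Subtype.ext (C.coord_sep v hv)) (fun i v => C.coord_smul i v), hconst, hdim]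
  have : Finite {v : V // act v = v} :=
    Nat.finite_of_card_ne_zero (by rw [hW]; exact pow_ne_zero _ (by have := C.one_lt; omega))
  let W := {v : {v : V // act v = v} // (v : V) ≠ 0}
  have hWcard : Nat.card W = C.Q ^ (d + 1 - C.g) - 1 := by
    have := Fintype.ofFinite {v : V // act v = v}
    rw [← hW, Nat.card_eq_fintype_card, Nat.card_eq_fintype_card]
    have hz : act 0 = 0 := Subtype.ext (smul_zero C.Φ)
    rw [Fintype.card_subtype, show (Finset.univ.filter fun v : {v : V // act v = v} => (v : V) ≠ 0) =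
      Finset.univ.erase ⟨0, hz⟩ by
        ext v
        simp only [Finset.mem_filter, Finset.mem_univ, true_and, Finset.mem_erase, and_true]
        exact ⟨fun h h' => h (congrArg Subtype.val h'), fun h h' => h (Subtype.ext h')⟩,
      Finset.card_erase_of_mem (Finset.mem_univ _), Finset.card_univ]
  have hWmem : ∀ w : W, ((w.1 : V) : G) ≠ 0 := fun w h => w.2 (Subtype.ext h)
  let T := {D // φ D = (⟨C.cls E, hx⟩ : C.Fix)}
  let ψ : W → T := fun w => ⟨⟨D₀ + divisorOf ((w.1 : V) : G),
      (mem_rrs_iff_divisor (hWmem w)).mp (w.1 : V).2,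
      by rw [map_add, hD₀d, degree_divisorOf, add_zero],
      by rw [smul_add, hD₀f, smul_divisorOf,
        show C.Φ • ((w.1 : V) : G) = _ from congrArg Subtype.val w.1.2]⟩,
    Subtype.ext (((C.cls_eq_iff (by rw [map_add, degree_divisorOf, add_zero])).mpr
      ⟨_, hWmem w, rfl⟩).trans hD₀c)⟩
  have := Fintype.ofFinite T
  have hψ : ∀ D : T, Nat.card {w // ψ w = D} = C.Q - 1 := by
    rintro ⟨⟨D, hD0, hDd, hDf⟩, hDx⟩
    have hDc : C.cls D = C.cls D₀ := (congrArg Subtype.val hDx).trans hD₀c.symm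
    obtain ⟨f, hf0, hf⟩ := (C.cls_eq_iff (hDd.trans hD₀d.symm)).mp hDc
    have hdiv : divisorOf (K := k) (C.Φ • f) = divisorOf f := by
      have := hDf
      rw [hf, smul_add, hD₀f, smul_divisorOf] at this
      exact add_left_cancel this
    obtain ⟨c, hc⟩ := exists_const_of_divisor_eq hf0 ((smul_ne_zero_iff_ne _).mpr hf0) hdiv.symm
    have hc0 : c ≠ 0 := fun h => (smul_ne_zero_iff_ne C.Φ).mpr hf0 (by rw [hc, h, map_zero, zero_mul])
    obtain ⟨a, ha0, ha⟩ := C.exists_fixed_scaling hc0 hc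
    set f₁ := algebraMap k G a * f with hf₁
    have hf₁0 : f₁ ≠ 0 := mul_ne_zero ((map_ne_zero _).mpr ha0) hf0
    have hf₁D : D = D₀ + divisorOf f₁ := by
      rw [hf, hf₁, divisorOf_mul ((map_ne_zero _).mpr ha0) hf0, divisorOf_algebraMap, zero_add]
    have hf₁mem : f₁ ∈ V := (mem_rrs_iff_divisor hf₁0).mpr (hf₁D ▸ hD0)
    let U := {b : {a : k // a ^ C.Q = a} // (b : k) ≠ 0}
    have hb : ∀ b : U, C.Φ • (algebraMap k G (b.1 : k) * f₁) = algebraMap k G (b.1 : k) * f₁ :=
      fun b => by rw [smul_mul', SemilinearAut.smul_algebraMap, C.base, b.1.2, ha]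
    let toW : U → W := fun b => ⟨⟨⟨algebraMap k G (b.1 : k) * f₁, by
        rw [← Algebra.smul_def]; exact V.smul_mem _ hf₁mem⟩, Subtype.ext (hb b)⟩,
      fun h => mul_ne_zero ((map_ne_zero _).mpr b.2) hf₁0 (congrArg Subtype.val h)⟩
    have htoW : ∀ b, ψ (toW b) = ⟨⟨D, hD0, hDd, hDf⟩, hDx⟩ := fun b => Subtype.ext (Subtype.ext (by
      show D₀ + divisorOf (algebraMap k G (b.1 : k) * f₁) = D
      rw [divisorOf_mul ((map_ne_zero _).mpr b.2) hf₁0, divisorOf_algebraMap, zero_add, ← hf₁D]))
    have hbij : Function.Bijective (fun b : U => (⟨toW b, htoW b⟩ :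
        {w // ψ w = ⟨⟨D, hD0, hDd, hDf⟩, hDx⟩})) := by
      refine ⟨fun b b' h => ?_, fun ⟨w, hw⟩ => ?_⟩
      · have := congrArg (fun w => (((w.1 : W).1 : V) : G)) h
        exact Subtype.ext (Subtype.ext ((algebraMap k G).injective (mul_right_cancel₀ hf₁0 this)))
      · have h2 : D₀ + divisorOf ((w.1 : V) : G) = D := congrArg (fun D : T => (D.1 : Divisor k G)) hw
        rw [hf₁D] at h2
        obtain ⟨b, hb'⟩ := exists_const_of_divisor_eq hf₁0 (hWmem w) (add_left_cancel h2).symm
        have hb0 : b ≠ 0 := fun h => hWmem w (by rw [hb', h, map_zero, zero_mul])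
        have hfix : b ^ C.Q = b := (algebraMap k G).injective (mul_right_cancel₀ hf₁0 (by
          have := congrArg Subtype.val w.1.2
          simp only [act, hb', smul_mul', SemilinearAut.smul_algebraMap, C.base, ha] at this
          exact this))
        exact ⟨⟨⟨b, hfix⟩, hb0⟩, Subtype.ext (Subtype.ext (Subtype.ext (Subtype.ext hb'.symm)))⟩
    rw [← Nat.card_congr (Equiv.ofBijective _ hbij)]
    have : Finite {a : k // a ^ C.Q = a} :=
      Nat.finite_of_card_ne_zero (by rw [hconst]; have := C.one_lt; omega)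
    have := Fintype.ofFinite {a : k // a ^ C.Q = a}
    rw [Nat.card_eq_fintype_card, Fintype.card_subtype,
      show (Finset.univ.filter fun b : {a : k // a ^ C.Q = a} => (b : k) ≠ 0) =
        Finset.univ.erase ⟨0, zero_pow (by have := C.one_lt; omega)⟩ by
          ext b; simp [Subtype.ext_iff],
      Finset.card_erase_of_mem (Finset.mem_univ _), Finset.card_univ, ← Nat.card_eq_fintype_card,
      hconst]
  rw [← hWcard, ← Nat.card_congr (Equiv.sigmaFiberEquiv ψ), Nat.card_sigma,
    Finset.sum_congr rfl fun D _ => hψ D, Finset.sum_const, smul_eq_mul, Finset.card_univ,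
    ← Nat.card_eq_fintype_card, mul_comm]

end FrobCurve

end Fermat.Agent.ResidualTorsion

end
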