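import Mathlib.FieldTheory.IsAlgClosed.Basic
import Mathlib.FieldTheory.Finite.GaloisField
import Mathlib.LinearAlgebra.Dual.Lemmas
import Mathlib.LinearAlgebra.FiniteDimensional.Lemmas

/-!
# Fixed vectors of a Frobenius-semilinear bijection

If coordinates commute with the `Q`-th power map on constants, a finite-dimensional space has
exactly `Q ^ d` fixed vectors.
-/

set_option autoImplicit false

noncomputable section

namespace Fermat.Agent.ResidualTorsion

open Module

variable {k : Type*} [Field k]

/-- Finitely many functionals out of a separating family form coordinates. -/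
theorem exists_coordinates {V : Type*} [AddCommGroup V] [Module k V] [FiniteDimensional k V]
    {ι : Type*} (c : ι → V →ₗ[k] k) (hc : ∀ v, (∀ i, c i v = 0) → v = 0) :
    ∃ s : Fin (finrank k V) → ι, Function.Bijective fun v j => c (s j) v := by
  classical
  have hspan : Submodule.span k (Set.range c) = ⊤ := by
    rw [← Subspace.dualCoannihilator_dualAnnihilator_eq (W := Submodule.span k (Set.range c))]
    suffices (Submodule.span k (Set.range c)).dualCoannihilator = ⊥ by
      rw [this, Submodule.dualAnnihilator_bot]
    rw [Submodule.eq_bot_iff]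
    intro v hv
    rw [Submodule.mem_dualCoannihilator] at hv
    exact hc v fun i => hv _ (Submodule.subset_span ⟨i, rfl⟩)
  obtain ⟨t, ht, -, hli⟩ := Submodule.exists_fun_fin_finrank_span_eq k (Set.range c)
  have e : finrank k (Submodule.span k (Set.range c)) = finrank k V := by
    rw [hspan, finrank_top, Subspace.dual_finrank_eq]
  choose u hu using fun l : Fin (finrank k V) => ht (Fin.cast e.symm l)
  refine ⟨u, ?_⟩
  let f : V →ₗ[k] (Fin (finrank k V) → k) := LinearMap.pi fun j => c (u j)
  have hli' : LinearIndependent k fun l => c (u l) := by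
    rw [show (fun l => c (u l)) = t ∘ Fin.cast e.symm from funext hu]
    exact hli.comp _ (Fin.cast_injective _)
  have hinj : Function.Injective f := by
    rw [← LinearMap.ker_eq_bot, Submodule.eq_bot_iff]
    intro v hv
    have htop : Submodule.span k (Set.range fun l => c (u l)) = ⊤ :=
      hli'.span_eq_top_of_card_eq_finrank' (by rw [Fintype.card_fin, Subspace.dual_finrank_eq])
    refine hc v fun i => ?_
    have h0 : ∀ φ ∈ Submodule.span k (Set.range fun l => c (u l)), φ v = 0 := fun φ hφ => by
      induction hφ using Submodule.span_induction with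
      | mem x hx => obtain ⟨l, rfl⟩ := hx; exact congrFun hv l
      | zero => rfl
      | add x y _ _ hx hy => rw [LinearMap.add_apply, hx, hy, add_zero]
      | smul a x _ hx => rw [LinearMap.smul_apply, hx, smul_zero]
    exact h0 _ (htop ▸ Submodule.mem_top)
  exact ⟨hinj, (LinearMap.injective_iff_surjective_of_finrank_eq_finrank (by simp)).mp hinj⟩

/-- There are `Q` constants fixed by `c ↦ c ^ Q`. -/
theorem natCard_pow_eq_self [IsAlgClosed k] {q n : ℕ} [CharP k q] (hq : q.Prime) (hn : n ≠ 0) :
    Nat.card {c : k // c ^ (q ^ n) = c} = q ^ n := by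
  classical
  set P : Polynomial k := Polynomial.X ^ (q ^ n) - Polynomial.X with hP
  have h1 : 1 < q ^ n := Nat.one_lt_pow hn hq.one_lt
  have hsep : P.Separable := galois_poly_separable q (q ^ n) (dvd_pow_self q hn)
  have hP0 : P ≠ 0 := FiniteField.X_pow_card_sub_X_ne_zero k h1
  have hset : {c : k | c ^ (q ^ n) = c} = ↑P.roots.toFinset := by
    ext c
    rw [Set.mem_ofPred_eq, Finset.mem_coe, Multiset.mem_toFinset, Polynomial.mem_roots hP0]
    simp [Polynomial.IsRoot, hP, sub_eq_zero]
  rw [show Nat.card {c : k // c ^ (q ^ n) = c} = ({c : k | c ^ (q ^ n) = c}).ncard from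
    Nat.card_coe_set_eq _, hset, Set.ncard_coe_finset,
    Multiset.toFinset_card_of_nodup (Polynomial.nodup_roots hsep),
    IsAlgClosed.card_roots_eq_natDegree, hP, FiniteField.X_pow_card_sub_X_natDegree_eq k h1]

/-- A space with coordinates commuting with `c ↦ c ^ Q` has `F ^ d` fixed vectors, `F` the
fixed constants. -/
theorem natCard_fixed {V : Type*} [AddCommGroup V] [Module k V] [FiniteDimensional k V]
    (φ : V → V) {Q : ℕ} {ι : Type*} (c : ι → V →ₗ[k] k)
    (hc : ∀ v, (∀ i, c i v = 0) → v = 0) (hφ : ∀ i v, c i (φ v) = c i v ^ Q) :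
    Nat.card {v : V // φ v = v} = Nat.card {a : k // a ^ Q = a} ^ finrank k V := by
  obtain ⟨s, hs⟩ := exists_coordinates c hc
  have key : ∀ v, φ v = v ↔ ∀ j, c (s j) v ^ Q = c (s j) v := fun v =>
    ⟨fun h j => by rw [← hφ, h], fun h => hs.1 (funext fun j => by
      show c (s j) (φ v) = c (s j) v
      rw [hφ, h j])⟩
  let e : {v : V // φ v = v} ≃ (Fin (finrank k V) → {a : k // a ^ Q = a}) :=
    ((Equiv.ofBijective _ hs).subtypeEquiv (q := fun w => ∀ j, w j ^ Q = w j) key).trans
      (Equiv.subtypePiEquivPi (p := fun _ (a : k) => a ^ Q = a))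
  rw [Nat.card_congr e, Nat.card_pi]
  simp

end Fermat.Agent.ResidualTorsion

end
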