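import Mathlib.RingTheory.PowerSeries.Expand
import Mathlib.RingTheory.PowerSeries.Substitution
import Mathlib.RingTheory.PowerSeries.Inverse
import Mathlib.Dynamics.PeriodicPts.Defs
import Mathlib.FieldTheory.KummerExtension
import Mathlib.GroupTheory.Perm.Basic

/-!
# The Euler product of fixed effective divisors

The generating function of the invariant multisets of a finite stable set is the product of
`(1 - t ^ m)⁻¹` over its orbits, hence passing to the `p`-th power of the permutation is the
product over the twists `t ↦ ζ t`.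
-/

set_option autoImplicit false

noncomputable section

open PowerSeries Function

namespace Fermat.Agent.ResidualTorsion

variable {α : Type*} (σ : Equiv.Perm α)

/-- Invariant multisets of size `d` in `S`. -/
def effSet (S : Finset α) (d : ℕ) : Set (α →₀ ℕ) :=
  {f | f.support ⊆ S ∧ (∀ a, f (σ a) = f a) ∧ (f.sum fun _ m => m) = d}

theorem finite_effSet (S : Finset α) (d : ℕ) : (effSet σ S d).Finite := by
  classical
  refine Set.Finite.of_finite_image (f := fun f (a : S) => f (a : α))
    ((Set.Finite.pi (t := fun _ : S => Set.Iic d) fun _ => Set.finite_Iic d).subset ?_) ?_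
  · rintro _ ⟨f, hf, rfl⟩ a -
    show f (a : α) ≤ d
    rw [← hf.2.2, Finsupp.sum]
    by_cases ha : (a : α) ∈ f.support
    · exact Finset.single_le_sum (fun _ _ => Nat.zero_le _) ha
    · rw [Finsupp.notMem_support_iff.mp ha]; exact Nat.zero_le _
  · intro f hf f' hf' h
    refine Finsupp.ext fun a => ?_
    by_cases ha : a ∈ S
    · exact congrFun h ⟨a, ha⟩
    · rw [Finsupp.notMem_support_iff.mp fun h => ha (hf.1 h),
        Finsupp.notMem_support_iff.mp fun h => ha (hf'.1 h)]

variable (R : Type*) [CommRing R]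

/-- Their generating function. -/
def gen (S : Finset α) : PowerSeries R := PowerSeries.mk fun d => (Nat.card (effSet σ S d) : R)

theorem gen_empty : gen σ R ∅ = 1 := by
  ext d
  rw [gen, coeff_mk, coeff_one]
  rcases eq_or_ne d 0 with rfl | hd
  · have : effSet σ (∅ : Finset α) 0 = {0} := by
      ext f
      constructor
      · intro hf
        exact Finsupp.support_eq_empty.mp (Finset.subset_empty.mp hf.1)
      · rintro rfl
        exact ⟨by simp, fun a => rfl, by simp⟩
    rw [this, if_pos rfl]
    simp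
  · have : effSet σ (∅ : Finset α) d = ∅ := by
      ext f
      simp only [Set.mem_empty_iff_false, iff_false]
      intro hf
      rw [Finsupp.support_eq_empty.mp (Finset.subset_empty.mp hf.1)] at hf
      exact hd (by simpa using hf.2.2.symm)
    rw [this, if_neg hd]
    simp

/-- Stable finite set. -/
def IsStable (S : Finset α) : Prop := ∀ a ∈ S, σ a ∈ S

variable {σ} {R}

theorem IsStable.iterate {S : Finset α} (h : IsStable σ S) {a : α} (ha : a ∈ S) (i : ℕ) :
    σ^[i] a ∈ S := by
  induction i with
  | zero => exact ha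
  | succ i ih => rw [iterate_succ_apply']; exact h _ ih

theorem IsStable.periodic {S : Finset α} (h : IsStable σ S) {a : α} (ha : a ∈ S) :
    0 < minimalPeriod σ a := by
  classical
  rw [minimalPeriod_pos_iff_mem_periodicPts]
  obtain ⟨i, hi, j, hj, hij, heq⟩ := Finset.exists_ne_map_eq_of_card_lt_of_maps_to
    (s := Finset.range (S.card + 1)) (t := S) (by simp) (f := fun i => σ^[i] a)
    fun i _ => h.iterate ha i
  wlog hlt : i < j generalizing i j
  · exact this j hj i hi hij.symm heq.symm (by omega)
  refine ⟨j - i, by omega, ?_⟩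
  show σ^[j - i] a = a
  refine (σ.injective.iterate i) ?_
  rw [← iterate_add_apply, Nat.add_sub_cancel' hlt.le]
  exact heq.symm

variable (σ) in
/-- The orbit of a periodic point. -/
def orbit [DecidableEq α] (x : α) : Finset α :=
  (Finset.range (minimalPeriod σ x)).image fun i => σ^[i] x

variable [DecidableEq α]

theorem card_orbit (x : α) : (orbit σ x).card = minimalPeriod σ x := by
  rw [orbit, Finset.card_image_of_injOn, Finset.card_range]
  intro i hi j hj h
  rw [Finset.coe_range, Set.mem_Iio] at hi hj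
  exact (iterate_eq_iterate_iff_of_lt_minimalPeriod hi hj).mp h

theorem iterate_mem_orbit {x : α} (hx : 0 < minimalPeriod σ x) (i : ℕ) :
    σ^[i] x ∈ orbit σ x :=
  Finset.mem_image.mpr ⟨i % minimalPeriod σ x, Finset.mem_range.mpr (Nat.mod_lt _ hx),
    iterate_mod_minimalPeriod_eq⟩

theorem self_mem_orbit {x : α} (hx : 0 < minimalPeriod σ x) : x ∈ orbit σ x :=
  iterate_mem_orbit hx 0

theorem apply_mem_orbit_iff {x a : α} (hx : 0 < minimalPeriod σ x) :
    σ a ∈ orbit σ x ↔ a ∈ orbit σ x := by
  constructor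
  · intro h
    obtain ⟨i, -, hi⟩ := Finset.mem_image.mp h
    have : a = σ^[i + minimalPeriod σ x - 1] x := σ.injective (by
      rw [← iterate_succ_apply' σ, show (i + minimalPeriod σ x - 1).succ = i + minimalPeriod σ x by
        omega, iterate_add_apply, iterate_minimalPeriod, hi])
    rw [this]
    exact iterate_mem_orbit hx _
  · intro h
    obtain ⟨i, -, rfl⟩ := Finset.mem_image.mp h
    rw [← iterate_succ_apply' σ]
    exact iterate_mem_orbit hx _

theorem orbit_subset {S : Finset α} (hS : IsStable σ S) {x : α} (hx : x ∈ S) :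
    orbit σ x ⊆ S := fun a ha => by
  obtain ⟨i, -, rfl⟩ := Finset.mem_image.mp ha
  exact hS.iterate hx i

theorem IsStable.sdiff_orbit {S : Finset α} (hS : IsStable σ S) {x : α} (hx : x ∈ S) :
    IsStable σ (S \ orbit σ x) := fun a ha => by
  rw [Finset.mem_sdiff] at ha ⊢
  exact ⟨hS a ha.1, fun h => ha.2 ((apply_mem_orbit_iff (hS.periodic hx)).mp h)⟩

variable (σ) in
/-- The indicator of the orbit. -/
def ind (x : α) : α →₀ ℕ := ∑ a ∈ orbit σ x, Finsupp.single a 1

theorem ind_apply (x a : α) : ind σ x a = if a ∈ orbit σ x then 1 else 0 := by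
  rw [ind, Finsupp.finsetSum_apply]
  simp only [Finsupp.single_apply]
  rw [Finset.sum_ite_eq']

theorem sum_ind (x : α) : ((ind σ x).sum fun _ m => m) = minimalPeriod σ x := by
  rw [ind, ← Finsupp.sum_finsetSum_index (fun _ => rfl) fun _ _ _ => rfl]
  simp [card_orbit]

theorem eq_on_orbit {f : α →₀ ℕ} (hf : ∀ a, f (σ a) = f a) {x a : α} (ha : a ∈ orbit σ x) :
    f a = f x := by
  obtain ⟨i, -, rfl⟩ := Finset.mem_image.mp ha
  induction i with
  | zero => rfl
  | succ i ih =>
    rw [iterate_succ_apply', hf]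
    rcases Nat.eq_zero_or_pos (minimalPeriod σ x) with h | h
    · simp [orbit, h] at ha
    · exact ih (iterate_mem_orbit h _)

/-- Removing an orbit. -/
theorem one_sub_mul_gen {S : Finset α} (hS : IsStable σ S) {x : α} (hx : x ∈ S) :
    (1 - X ^ minimalPeriod σ x) * gen σ R S = gen σ R (S \ orbit σ x) := by
  classical
  have hm := hS.periodic hx
  set m := minimalPeriod σ x
  ext d
  rw [sub_mul, one_mul, map_sub, coeff_X_pow_mul']
  simp only [gen, coeff_mk]
  have := (finite_effSet σ S d).to_subtype
  -- invariant multisets avoiding the orbit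
  let e₀ : {f : effSet σ S d // (f : α →₀ ℕ) x = 0} ≃ effSet σ (S \ orbit σ x) d :=
    { toFun := fun f => ⟨f.1.1, by
        refine ⟨fun a ha => Finset.mem_sdiff.mpr ⟨f.1.2.1 ha, fun hao => ?_⟩, f.1.2.2⟩
        exact Finsupp.mem_support_iff.mp ha ((eq_on_orbit f.1.2.2.1 hao).trans f.2)⟩
      invFun := fun f => ⟨⟨f.1, f.2.1.trans Finset.sdiff_subset, f.2.2⟩, by
        refine Finsupp.notMem_support_iff.mp fun h => ?_
        exact (Finset.mem_sdiff.mp (f.2.1 h)).2 (self_mem_orbit hm)⟩
      left_inv := fun f => rfl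
      right_inv := fun f => rfl }
  have hsplit : Nat.card (effSet σ S d) = Nat.card {f : effSet σ S d // (f : α →₀ ℕ) x = 0} +
      Nat.card {f : effSet σ S d // ¬ (f : α →₀ ℕ) x = 0} := by
    rw [← Nat.card_sum]
    exact (Nat.card_congr (Equiv.sumCompl _)).symm
  have hle : ∀ f : effSet σ S d, ¬ (f : α →₀ ℕ) x = 0 → ind σ x ≤ (f : α →₀ ℕ) := fun f hf =>
    Finsupp.le_def.mpr fun a => by
      rw [ind_apply]
      split_ifs with ha
      · rw [eq_on_orbit f.2.2.1 ha]; omega
      · exact Nat.zero_le _
  rw [hsplit, Nat.card_congr e₀, Nat.cast_add]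
  split_ifs with hmd
  · let e₁ : {f : effSet σ S d // ¬ (f : α →₀ ℕ) x = 0} ≃ effSet σ S (d - m) :=
      { toFun := fun f => ⟨(f.1 : α →₀ ℕ) - ind σ x, by
          refine ⟨fun a ha => f.1.2.1 ?_, fun a => ?_, ?_⟩
          · rw [Finsupp.mem_support_iff] at ha ⊢
            rw [Finsupp.tsub_apply] at ha
            omega
          · rw [Finsupp.tsub_apply, Finsupp.tsub_apply, f.1.2.2.1, ind_apply, ind_apply]
            simp only [apply_mem_orbit_iff hm]
          · have h1 : (((f.1 : α →₀ ℕ) - ind σ x) + ind σ x).sum (fun _ m => m) = d := by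
              rw [tsub_add_cancel_of_le (hle f.1 f.2)]; exact f.1.2.2.2
            rw [Finsupp.sum_add_index' (fun _ => rfl) fun _ _ _ => rfl, sum_ind] at h1
            omega⟩
        invFun := fun f => ⟨⟨(f : α →₀ ℕ) + ind σ x, by
          refine ⟨Finsupp.support_add.trans (Finset.union_subset f.2.1 ?_), fun a => ?_, ?_⟩
          · intro a ha
            rw [Finsupp.mem_support_iff, ind_apply] at ha
            exact orbit_subset hS hx (by by_contra h; simp [h] at ha)
          · rw [Finsupp.add_apply, Finsupp.add_apply, f.2.2.1, ind_apply, ind_apply]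
            simp only [apply_mem_orbit_iff hm]
          · rw [Finsupp.sum_add_index' (fun _ => rfl) fun _ _ _ => rfl, sum_ind, f.2.2.2]
            omega⟩, by
          simp [ind_apply, self_mem_orbit hm]⟩
        left_inv := fun f => Subtype.ext (Subtype.ext (tsub_add_cancel_of_le (hle f.1 f.2)))
        right_inv := fun f => Subtype.ext (add_tsub_cancel_right _ _) }
    rw [Nat.card_congr e₁]
    ring
  · have : IsEmpty {f : effSet σ S d // ¬ (f : α →₀ ℕ) x = 0} := ⟨fun f => hmd (by
      have h1 : (((f.1 : α →₀ ℕ) - ind σ x) + ind σ x).sum (fun _ m => m) = d := by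
        rw [tsub_add_cancel_of_le (hle f.1 f.2)]; exact f.1.2.2.2
      rw [Finsupp.sum_add_index' (fun _ => rfl) fun _ _ _ => rfl, sum_ind] at h1
      omega)⟩
    rw [Nat.card_of_isEmpty (α := {f : effSet σ S d // ¬ (f : α →₀ ℕ) x = 0})]
    simp

/-- Removing a union of orbits of one length. -/
theorem one_sub_pow_mul_gen {m : ℕ} : ∀ (c : ℕ) {T S : Finset α}, T.card = c → T ⊆ S →
    IsStable σ S → IsStable σ T → (∀ a ∈ T, minimalPeriod σ a = m) →
    (1 - X ^ m) ^ (c / m) * gen σ R S = gen σ R (S \ T) := by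
  intro c
  induction c using Nat.strong_induction_on with
  | _ c ih =>
    intro T S hc hTS hS hT hper
    rcases T.eq_empty_or_nonempty with rfl | ⟨x, hx⟩
    · subst hc; simp
    have hm : 0 < m := hper x hx ▸ hT.periodic hx
    have hsub : orbit σ x ⊆ T := orbit_subset hT hx
    have hcard : (T \ orbit σ x).card = c - m := by
      rw [Finset.card_sdiff, Finset.inter_eq_left.mpr hsub, card_orbit, hper x hx, hc]
    have hmc : m ≤ c := by
      rw [← hc, ← hper x hx, ← card_orbit (σ := σ) x]; exact Finset.card_le_card hsub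
    have hdiv : c / m = (c - m) / m + 1 := by
      conv_lhs => rw [← Nat.sub_add_cancel hmc]
      rw [Nat.add_div_right _ hm]
    rw [hdiv, pow_succ, mul_assoc]
    conv_lhs => rw [← hper x hx]
    rw [one_sub_mul_gen hS (hTS hx), hper x hx,
      ih (c - m) (by omega) hcard (Finset.sdiff_subset_sdiff hTS subset_rfl)
        (hS.sdiff_orbit (hTS hx)) (hT.sdiff_orbit hx)
        fun a ha => hper a (Finset.mem_sdiff.mp ha).1]
    congr 1
    ext a
    simp only [Finset.mem_sdiff]
    have := @hsub a
    tauto

omit [DecidableEq α] in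
theorem prod_one_sub_mul [IsDomain R] {n : ℕ} {η : R} (hη : IsPrimitiveRoot η n) (hn : 0 < n)
    (y : PowerSeries R) : ∏ i ∈ Finset.range n, (1 - C (η ^ i) * y) = 1 - y ^ n := by
  have h := congrArg (Polynomial.eval (1 : PowerSeries R)) (X_pow_sub_C_eq_prod
    (hη.map_of_injective (C_injective (R := R))) hn (α := y) (a := y ^ n) rfl)
  simp only [Polynomial.eval_prod, Polynomial.eval_sub, Polynomial.eval_pow, Polynomial.eval_X,
    Polynomial.eval_C, one_pow] at h
  rw [h]
  simp [map_pow]

omit [DecidableEq α] in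
theorem IsStable.pow {S : Finset α} (hS : IsStable σ S) (p : ℕ) : IsStable (σ ^ p) S :=
  fun a ha => by rw [Equiv.Perm.coe_pow]; exact hS.iterate ha p

/-- Passing from `σ` to `σ ^ p`. -/
theorem expand_gen_pow [IsDomain R] {p : ℕ} (hp : p.Prime) {ζ : R} (hζ : IsPrimitiveRoot ζ p) :
    ∀ {S : Finset α}, IsStable σ S →
      PowerSeries.expand p hp.ne_zero (gen (σ ^ p) R S) =
        ∏ i ∈ Finset.range p, rescale (ζ ^ i) (gen σ R S) := by
  intro S
  induction S using Finset.strongInduction with
  | _ S ih =>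
    intro hS
    rcases S.eq_empty_or_nonempty with rfl | ⟨x, hx⟩
    · simp [gen_empty]
    have hm := hS.periodic hx
    have hper : ∀ a ∈ orbit σ x, minimalPeriod σ a = minimalPeriod σ x := fun a ha => by
      obtain ⟨i, -, rfl⟩ := Finset.mem_image.mp ha
      exact minimalPeriod_apply_iterate (minimalPeriod_pos_iff_mem_periodicPts.mp hm) i
    set m := minimalPeriod σ x with hmdef
    have hg : 0 < Nat.gcd m p := Nat.gcd_pos_of_pos_left _ hm
    set m' := m / Nat.gcd m p with hm'
    have hper' : ∀ a ∈ orbit σ x, minimalPeriod (σ ^ p) a = m' := fun a ha => by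
      rw [Equiv.Perm.coe_pow, minimalPeriod_iterate_eq_div_gcd hp.ne_zero, hper a ha]
    have horb : IsStable σ (orbit σ x) := fun a ha => (apply_mem_orbit_iff hm).mpr ha
    have hτ := one_sub_pow_mul_gen (σ := σ ^ p) (R := R) m (card_orbit (σ := σ) x)
      (orbit_subset hS hx) (hS.pow p) (horb.pow p) hper'
    have hσ := one_sub_mul_gen (R := R) hS hx
    have hrec := ih _ (Finset.sdiff_ssubset (orbit_subset hS hx) ⟨x, self_mem_orbit hm⟩)
      (hS.sdiff_orbit hx)
    rw [← hσ, ← hτ, map_mul] at hrec
    simp only [map_mul, map_sub, map_one, map_pow, rescale_X, mul_pow,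
      PowerSeries.expand_X] at hrec
    rw [Finset.prod_mul_distrib] at hrec
    have hfac : ∏ i ∈ Finset.range p, (1 - (C ζ ^ i) ^ m * X ^ m) =
        (1 - ((X : PowerSeries R) ^ p) ^ m') ^ (m / m') := by
      rcases Nat.coprime_or_dvd_of_prime hp m with hcop | hdvd
      · have hgcd : Nat.gcd m p = 1 := Nat.coprime_comm.mp hcop
        have h1 : m' = m := by rw [hm', hgcd, Nat.div_one]
        rw [h1, Nat.div_self hm, pow_one, ← pow_mul, mul_comm p m, pow_mul,
          ← prod_one_sub_mul (hζ.pow_of_coprime m (Nat.coprime_comm.mp hcop)) hp.pos]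
        refine Finset.prod_congr rfl fun i _ => ?_
        rw [← map_pow, ← map_pow, ← pow_mul, ← pow_mul, mul_comm i m]
      · obtain ⟨r, hr⟩ := hdvd
        have hgcd : Nat.gcd m p = p := Nat.gcd_eq_right ⟨r, hr⟩
        have h1 : m' = r := by rw [hm', hgcd, hr, Nat.mul_div_cancel_left _ hp.pos]
        have hr0 : 0 < r := Nat.pos_of_ne_zero (by rintro rfl; rw [mul_zero] at hr; omega)
        rw [h1, hr, Nat.mul_div_cancel _ hr0, ← pow_mul]
        rw [Finset.prod_congr rfl fun i _ => show
          (1 : PowerSeries R) - (C ζ ^ i) ^ (p * r) * X ^ (p * r) = 1 - X ^ (p * r) by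
            rw [← map_pow, ← map_pow, ← pow_mul, mul_comm i, mul_assoc, pow_mul, hζ.pow_eq_one, one_pow,
              map_one, one_mul],
          Finset.prod_const, Finset.card_range]
    rw [hfac] at hrec
    refine mul_left_cancel₀ (pow_ne_zero _ fun h0 => ?_) hrec
    have h1 := congrArg constantCoeff h0
    have hm'0 : 0 < m' := Nat.div_pos (Nat.gcd_le_left _ hm) hg
    simp [zero_pow hp.ne_zero, zero_pow hm'0.ne'] at h1

end Fermat.Agent.ResidualTorsion

end
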