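import Fermat.Agent.ResidualTorsion.Zeta
import Fermat.Agent.Frobenius.Exists
import Mathlib.RingTheory.Polynomial.Cyclotomic.Eval
import Mathlib.NumberTheory.Padics.PadicVal.Basic

/-!
# The `p`-part of the class number along the `p`-power extensions

It grows linearly, with slope the multiplicity of `1` as a root of the numerator modulo `p`.
-/

set_option autoImplicit false

noncomputable section

open Polynomial AlgebraicCurve Fermat.Agent.FunctionFieldRR

namespace Fermat.Agent.ResidualTorsion

theorem prod_range_mul {R : Type*} [CommMonoid R] (f : ℕ → R) (n p : ℕ) :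
    ∏ i ∈ Finset.range (n * p), f i =
      ∏ a ∈ Finset.range p, ∏ b ∈ Finset.range n, f (p * b + a) := by
  induction n with
  | zero => simp
  | succ n ih =>
    rw [Nat.succ_mul, Finset.prod_range_add, ih, ← Finset.prod_mul_distrib]
    refine Finset.prod_congr rfl fun a _ => ?_
    rw [Finset.prod_range_succ, mul_comm p n]

namespace FrobCurve

variable {k G : Type*} [Field k] [Field G] [Algebra k G] [IsAlgClosed k]
  [IsFunctionField k G] (C : FrobCurve k G) {p : ℕ} (hp : p.Prime)

/-- The extensions of degree `p ^ j`. -/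
def tower : ℕ → FrobCurve k G
  | 0 => C
  | j + 1 => (tower j).power p hp.pos

theorem tower_Φ (j : ℕ) : (C.tower hp j).Φ = C.Φ ^ (p ^ j) := by
  induction j with
  | zero => simp [tower]
  | succ j ih => rw [tower, power_Φ, ih, ← pow_mul, pow_succ]

variable {R : Type*} [CommRing R] [IsDomain R]

theorem expand_lPoly_tower : ∀ (j : ℕ) {ω : R}, IsPrimitiveRoot ω (p ^ j) →
    ((C.tower hp j).lPoly.map (Int.castRingHom R)).expand R (p ^ j) =
      ∏ i ∈ Finset.range (p ^ j),
        (C.lPoly.map (Int.castRingHom R)).comp (Polynomial.C (ω ^ i) * Polynomial.X) := by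
  intro j
  induction j with
  | zero => intro ω _; simp [tower]
  | succ j ih =>
    intro ω hω
    have hζ : IsPrimitiveRoot (ω ^ p ^ j) p :=
      hω.pow (pow_pos hp.pos _) (by rw [pow_succ])
    have hω' : IsPrimitiveRoot (ω ^ p) (p ^ j) :=
      hω.pow (pow_pos hp.pos _) (by rw [pow_succ, mul_comm])
    show ((((C.tower hp j).power p hp.pos).lPoly).map (Int.castRingHom R)).expand R (p ^ (j + 1)) = _
    rw [show p ^ (j + 1) = p ^ j * p from pow_succ p j, Polynomial.expand_mul,
      (C.tower hp j).expand_lPoly hp hζ, map_prod, prod_range_mul]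
    refine Finset.prod_congr rfl fun a _ => ?_
    have hcomp : Polynomial.expand R (p ^ j) (((C.tower hp j).lPoly.map (Int.castRingHom R)).comp
        (Polynomial.C ((ω ^ p ^ j) ^ a) * Polynomial.X)) =
        (Polynomial.expand R (p ^ j) ((C.tower hp j).lPoly.map (Int.castRingHom R))).comp
          (Polynomial.C (ω ^ a) * Polynomial.X) := by
      rw [Polynomial.expand_eq_comp_X_pow, Polynomial.expand_eq_comp_X_pow, Polynomial.comp_assoc,
        Polynomial.comp_assoc]
      congr 1
      simp only [Polynomial.mul_comp, Polynomial.C_comp, Polynomial.X_comp, Polynomial.pow_comp]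
      rw [mul_pow, ← map_pow, ← pow_mul, ← pow_mul, mul_comm (p ^ j) a]
    rw [hcomp, ih hω', Polynomial.prod_comp]
    refine Finset.prod_congr rfl fun b _ => ?_
    rw [Polynomial.comp_assoc]
    congr 1
    rw [Polynomial.mul_comp, Polynomial.C_comp, Polynomial.X_comp, ← mul_assoc, ← map_mul,
      pow_add, pow_mul]

theorem h_tower (j : ℕ) {ω : R} (hω : IsPrimitiveRoot ω (p ^ j)) :
    (((C.tower hp j).h : ℤ) : R) =
      ∏ i ∈ Finset.range (p ^ j), Polynomial.aeval (ω ^ i) C.lPoly := by
  have h := congrArg (Polynomial.eval (1 : R)) (C.expand_lPoly_tower hp j hω)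
  rw [Polynomial.expand_eval, one_pow, Polynomial.eval_prod, Polynomial.eval_one_map,
    eval_one_lPoly, eq_intCast] at h
  rw [h]
  refine Finset.prod_congr rfl fun i _ => ?_
  rw [Polynomial.eval_comp, Polynomial.eval_mul, Polynomial.eval_C, Polynomial.eval_X, mul_one,
    Polynomial.eval_map, Polynomial.aeval_def, algebraMap_int_eq]

end FrobCurve

section Valuation

local notation "Ω" => AlgebraicClosure ℚ

variable {B : ValuationSubring (AlgebraicClosure ℚ)} {p : ℕ}

theorem valuation_natCast_le_one (n : ℕ) : B.valuation (n : Ω) ≤ 1 :=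
  (B.valuation_le_one_iff _).mpr (natCast_mem B n)

theorem valuation_prime_lt_one (hB : B.LiesOverPrime p) :
    B.valuation (p : Ω) < 1 :=
  (ValuationSubring.valuation_lt_one_iff B ⟨(p : Ω), natCast_mem B p⟩).mp
    ((ValuationSubring.coe_mem_nonunits_iff).mp (by exact hB))

theorem valuation_natCast (hp : p.Prime) (hB : B.LiesOverPrime p) {n : ℕ} (hn : n ≠ 0) :
    B.valuation (n : Ω) = B.valuation (p : Ω) ^ padicValNat p n := by
  have : Fact p.Prime := ⟨hp⟩
  obtain ⟨e, m, hm, rfl⟩ := Nat.exists_eq_pow_mul_and_not_dvd hn p hp.ne_one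
  have hm0 : m ≠ 0 := fun h => hm (h ▸ dvd_zero p)
  rw [padicValNat.mul (pow_ne_zero _ hp.ne_zero) hm0, padicValNat.prime_pow,
    padicValNat.eq_zero_of_not_dvd hm, add_zero, Nat.cast_mul, Nat.cast_pow, map_mul, map_pow]
  suffices B.valuation (m : Ω) = 1 by rw [this, mul_one]
  refine le_antisymm (valuation_natCast_le_one m) (le_of_not_gt fun hlt => ?_)
  have hcop : Nat.Coprime m p := Nat.coprime_comm.mp ((Nat.Prime.coprime_iff_not_dvd hp).mpr hm)
  have hb := congrArg (fun z : ℤ => B.valuation (z : Ω)) (Nat.gcd_eq_gcd_ab m p)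
  rw [hcop.gcd_eq_one] at hb
  simp only [Nat.cast_one, Int.cast_one, map_one, Int.cast_add, Int.cast_mul, Int.cast_natCast] at hb
  have hz : ∀ z : ℤ, B.valuation (z : Ω) ≤ 1 := fun z =>
    (B.valuation_le_one_iff _).mpr (intCast_mem B z)
  refine absurd (hb.le.trans (Valuation.map_add _ _ _)) (not_le.mpr (max_lt ?_ ?_))
  · rw [map_mul]; exact mul_lt_one_of_nonneg_of_lt_one_left zero_le hlt (hz _)
  · rw [map_mul]
    exact mul_lt_one_of_nonneg_of_lt_one_left zero_le (valuation_prime_lt_one hB) (hz _)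

theorem valuation_pow_sub_one_le {η : Ω} (hη : B.valuation η ≤ 1) (i : ℕ) :
    B.valuation (η ^ i - 1) ≤ B.valuation (η - 1) := by
  rw [← geom_sum_mul η i, map_mul]
  refine mul_le_of_le_one_left zero_le ?_
  refine Valuation.map_sum_le _ fun j _ => ?_
  rw [map_pow]
  exact pow_le_one₀ zero_le hη

theorem valuation_root_eq_one {η : Ω} {n : ℕ} (hn : 0 < n) (h : η ^ n = 1) :
    B.valuation η = 1 :=
  (pow_eq_one_iff_of_nonneg zero_le hn.ne').1 (by rw [← map_pow, h, map_one])

theorem valuation_sub_one_eq {η μ : Ω} {n : ℕ} (hn : 0 < n) (hη : IsPrimitiveRoot η n)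
    (hμ : IsPrimitiveRoot μ n) : B.valuation (μ - 1) = B.valuation (η - 1) := by
  have : NeZero n := ⟨hn.ne'⟩
  obtain ⟨i, -, rfl⟩ := hη.eq_pow_of_pow_eq_one hμ.pow_eq_one
  obtain ⟨i', -, hi'⟩ := hμ.eq_pow_of_pow_eq_one hη.pow_eq_one
  refine le_antisymm (valuation_pow_sub_one_le (valuation_root_eq_one hn hη.pow_eq_one).le i) ?_
  have := valuation_pow_sub_one_le (B := B) (valuation_root_eq_one hn hμ.pow_eq_one).le i'
  rwa [hi'] at this

/-- `p` is, up to units, the `φ(p ^ (i + 1))`-th power of `η - 1`. -/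
theorem valuation_prime_eq (hp : p.Prime) {η : Ω} {i : ℕ} (hη : IsPrimitiveRoot η (p ^ (i + 1))) :
    B.valuation (p : Ω) = B.valuation (η - 1) ^ (p ^ (i + 1)).totient := by
  classical
  have : Fact p.Prime := ⟨hp⟩
  have h1 := Polynomial.eval_one_cyclotomic_prime_pow (R := Ω) (p := p) i
  rw [Polynomial.cyclotomic_eq_prod_X_sub_primitiveRoots hη, Polynomial.eval_prod] at h1
  rw [← h1, map_prod, Finset.prod_congr rfl fun μ hμ => ?_, Finset.prod_const,
    hη.card_primitiveRoots]
  rw [Polynomial.eval_sub, Polynomial.eval_X, Polynomial.eval_C, Valuation.map_sub_swap]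
  exact valuation_sub_one_eq (pow_pos hp.pos _) hη
    ((mem_primitiveRoots (pow_pos hp.pos _)).mp hμ)

theorem valuation_aeval_int_le_one {x : Ω} (hx : B.valuation x ≤ 1) (P : Polynomial ℤ) :
    B.valuation (Polynomial.aeval x P) ≤ 1 := by
  rw [Polynomial.aeval_eq_sum_range]
  refine Valuation.map_sum_le _ fun j _ => ?_
  rw [zsmul_eq_mul, map_mul, map_pow]
  exact mul_le_one₀ ((B.valuation_le_one_iff _).mpr (intCast_mem B _)) zero_le
    (pow_le_one₀ zero_le hx)

/-- The value at a root of unity of high `p`-power order. -/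
theorem valuation_aeval_root (hp : p.Prime) (hB : B.LiesOverPrime p) (P : Polynomial ℤ)
    (hP : P.map (Int.castRingHom (ZMod p)) ≠ 0) :
    ∃ w ≤ P.natDegree, ∀ (i : ℕ) (η : Ω), w < (p ^ (i + 1)).totient →
      IsPrimitiveRoot η (p ^ (i + 1)) →
        B.valuation (Polynomial.aeval η P) = B.valuation (η - 1) ^ w := by
  classical
  have : Fact p.Prime := ⟨hp⟩
  set f := Int.castRingHom (ZMod p) with hf
  obtain ⟨u, hu, hu1⟩ := (P.map f).exists_eq_pow_rootMultiplicity_mul_and_not_dvd hP 1
  set w := (P.map f).rootMultiplicity 1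
  obtain ⟨U, rfl⟩ := Polynomial.map_surjective f ZMod.intCast_surjective u
  have hV : Polynomial.C (p : ℤ) ∣ P - (Polynomial.X - Polynomial.C 1) ^ w * U := by
    rw [Polynomial.C_dvd_iff_dvd_coeff]
    intro j
    rw [← ZMod.intCast_zmod_eq_zero_iff_dvd, ← eq_intCast f, ← Polynomial.coeff_map,
      Polynomial.map_sub, Polynomial.map_mul, Polynomial.map_pow, Polynomial.map_sub,
      Polynomial.map_X, Polynomial.map_C, map_one, hu, sub_self, Polynomial.coeff_zero]
  obtain ⟨V, hV⟩ := hV
  have hU1 : ¬ (p : ℤ) ∣ U.eval 1 := by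
    rw [← ZMod.intCast_zmod_eq_zero_iff_dvd]
    intro h
    refine hu1 (Polynomial.dvd_iff_isRoot.mpr ?_)
    show (U.map f).eval 1 = 0
    rw [Polynomial.eval_one_map]
    exact h
  refine ⟨w, ?_, fun i η hi hη => ?_⟩
  · calc w ≤ (P.map f).natDegree := by
          rw [hu, Polynomial.natDegree_mul (pow_ne_zero _ (Polynomial.X_sub_C_ne_zero 1))
            (fun h => hP (by rw [hu, h, mul_zero])), Polynomial.natDegree_pow,
            Polynomial.natDegree_X_sub_C, mul_one]
          exact Nat.le_add_right _ _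
      _ ≤ P.natDegree := Polynomial.natDegree_map_le
  have hη1 : B.valuation η ≤ 1 := (valuation_root_eq_one (pow_pos hp.pos _) hη.pow_eq_one).le
  have hp1 := valuation_prime_lt_one hB
  have hprime := valuation_prime_eq (B := B) hp hη
  have hlt : B.valuation (η - 1) < 1 := by
    by_contra hge
    rw [hprime] at hp1
    exact absurd hp1 (not_lt.mpr (one_le_pow₀ (not_lt.mp hge)))
  have hne : B.valuation (η - 1) ≠ 0 := by
    rw [Ne, Valuation.zero_iff, sub_eq_zero]
    intro h
    have := hη.eq_orderOf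
    rw [h, orderOf_one] at this
    exact absurd this (Nat.one_lt_pow (Nat.succ_ne_zero i) hp.one_lt).ne'
  have hUη : B.valuation (Polynomial.aeval η U) = 1 := by
    obtain ⟨W, hW⟩ := Polynomial.X_sub_C_dvd_sub_C_eval (p := U) (a := (1 : ℤ))
    have he : Polynomial.aeval η U = ((U.eval 1 : ℤ) : Ω) + (η - 1) * Polynomial.aeval η W := by
      have := congrArg (Polynomial.aeval η) hW
      rw [map_sub, map_mul, map_sub, Polynomial.aeval_X, Polynomial.aeval_C, Polynomial.aeval_C,
        map_one, sub_eq_iff_eq_add] at this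
      rw [this, eq_intCast (algebraMap ℤ Ω)]
      ring
    have h1 : B.valuation ((U.eval 1 : ℤ) : Ω) = 1 := by
      rcases Int.natAbs_eq (U.eval 1) with h | h
      all_goals
        rw [h]
        simp only [Int.cast_neg, Int.cast_natCast, Valuation.map_neg]
        rw [valuation_natCast hp hB (by rw [Int.natAbs_ne_zero]; exact fun h0 => hU1 (h0 ▸ dvd_zero _)),
          padicValNat.eq_zero_of_not_dvd (fun hd => hU1 (Int.natCast_dvd.mpr hd)), pow_zero]
    rw [he, Valuation.map_add_eq_of_lt_left _ (by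
      rw [h1, map_mul]
      exact mul_lt_one_of_nonneg_of_lt_one_left zero_le hlt (valuation_aeval_int_le_one hη1 W)), h1]
  have heval : Polynomial.aeval η P =
      (η - 1) ^ w * Polynomial.aeval η U + (p : Ω) * Polynomial.aeval η V := by
    have := congrArg (Polynomial.aeval η) hV
    rw [map_sub, map_mul, map_pow, map_sub, Polynomial.aeval_X, Polynomial.aeval_C, map_one,
      map_mul, Polynomial.aeval_C, sub_eq_iff_eq_add] at this
    rw [this, map_natCast]
    ring
  rw [heval, Valuation.map_add_eq_of_lt_left]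
  · rw [map_mul, map_pow, hUη, mul_one]
  · rw [map_mul, map_mul, map_pow, hUη, mul_one]
    refine lt_of_le_of_lt (mul_le_of_le_one_right zero_le (valuation_aeval_int_le_one hη1 V)) ?_
    rw [hprime]
    exact pow_lt_pow_right_of_lt_one₀ (zero_lt_iff.mpr hne) hlt hi

end Valuation

namespace FrobCurve

variable {k G : Type*} [Field k] [Field G] [Algebra k G] [IsAlgClosed k]
  [IsFunctionField k G] (C : FrobCurve k G) {p : ℕ} (hp : p.Prime)

/-- Linear growth of the `p`-part of the class number. -/
theorem exists_growth :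
    ∃ w ≤ 2 * C.g, ∃ J : ℕ, ∀ j : ℕ,
      padicValNat p (C.tower hp (J + j)).h = padicValNat p (C.tower hp J).h + w * j := by
  classical
  have : Fact p.Prime := ⟨hp⟩
  obtain ⟨B, hB⟩ := Fermat.Agent.Frobenius.exists_liesOverPrime (AlgebraicClosure ℚ) hp
  have hne : C.lPoly.map (Int.castRingHom (ZMod p)) ≠ 0 := fun h => by
    have := congrArg (fun P : Polynomial (ZMod p) => P.coeff 0) h
    simp [C.coeff_zero_lPoly] at this
  obtain ⟨w, hwd, hw⟩ := valuation_aeval_root hp hB C.lPoly hne
  refine ⟨w, hwd.trans C.natDegree_lPoly, w + 1, fun j => ?_⟩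
  induction j with
  | zero => simp
  | succ j ih =>
    set n := w + 1 + j with hn
    suffices hstep : padicValNat p (C.tower hp (n + 1)).h = padicValNat p (C.tower hp n).h + w by
      rw [show w + 1 + (j + 1) = n + 1 by omega, hstep, ih]
      ring
    obtain ⟨η, hη⟩ : ∃ η : AlgebraicClosure ℚ, IsPrimitiveRoot η (p ^ (n + 1)) := by
      have : NeZero (p ^ (n + 1)) := ⟨pow_ne_zero _ hp.ne_zero⟩
      exact HasEnoughRootsOfUnity.prim
    have hη' : IsPrimitiveRoot (η ^ p) (p ^ n) :=
      hη.pow (pow_pos hp.pos _) (by rw [pow_succ, mul_comm])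
    have hphi : w < (p ^ (n + 1)).totient := by
      rw [Nat.totient_prime_pow_succ hp]
      calc w < p ^ w := Nat.lt_pow_self hp.one_lt
        _ ≤ p ^ n := Nat.pow_le_pow_right hp.pos (by omega)
        _ ≤ p ^ n * (p - 1) := Nat.le_mul_of_pos_right _ (by have := hp.two_le; omega)
    have h1 := congrArg B.valuation (C.h_tower hp (n + 1) hη)
    have h2 := congrArg B.valuation (C.h_tower hp n hη')
    simp only [Int.cast_natCast] at h1 h2
    rw [show p ^ (n + 1) = p ^ n * p from pow_succ p n, prod_range_mul,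
      ← Finset.mul_prod_erase _ _ (Finset.mem_range.mpr hp.pos), map_mul] at h1
    simp only [add_zero, pow_mul] at h1
    rw [← h2, map_prod] at h1
    have hrest : ∀ a ∈ (Finset.range p).erase 0, B.valuation (∏ b ∈ Finset.range (p ^ n),
        Polynomial.aeval (η ^ (p * b + a)) C.lPoly) = B.valuation (η - 1) ^ (w * p ^ n) := by
      intro a ha
      rw [Finset.mem_erase, Finset.mem_range] at ha
      rw [map_prod, Finset.prod_congr rfl fun b _ => ?_, Finset.prod_const, Finset.card_range,
        ← pow_mul]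
      have hcop : Nat.Coprime (p * b + a) (p ^ (n + 1)) := by
        refine Nat.Coprime.pow_right _ (Nat.coprime_comm.mp ?_)
        rw [Nat.Prime.coprime_iff_not_dvd hp, Nat.dvd_add_right (dvd_mul_right p b)]
        exact fun hd => absurd (Nat.le_of_dvd (Nat.pos_of_ne_zero ha.1) hd) (not_le.mpr ha.2)
      have hprim := hη.pow_of_coprime _ hcop
      rw [hw n _ hphi hprim, valuation_sub_one_eq (pow_pos hp.pos _) hη hprim]
    have hprod := Finset.prod_congr rfl hrest
    rw [Finset.prod_const, Finset.card_erase_of_mem (Finset.mem_range.mpr hp.pos),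
      Finset.card_range] at hprod
    replace h1 := h1.trans (congrArg _ hprod)
    rw [← pow_mul, mul_assoc,
      ← Nat.totient_prime_pow_succ hp, mul_comm w, pow_mul, ← valuation_prime_eq hp hη,
      valuation_natCast hp hB (C.tower hp (n + 1)).h_pos.ne',
      valuation_natCast hp hB (C.tower hp n).h_pos.ne', ← pow_add] at h1
    exact (pow_right_strictAnti₀ (zero_lt_iff.mpr ((Valuation.ne_zero_iff _).mpr
      (Nat.cast_ne_zero.mpr hp.ne_zero))) (valuation_prime_lt_one hB)).injective h1

end FrobCurve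

end Fermat.Agent.ResidualTorsion

end
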