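import Fermat.Agent.ResidualTorsion.Classes
import Fermat.Agent.ResidualTorsion.Euler
import Mathlib.RingTheory.PowerSeries.Trunc
import Mathlib.Algebra.Polynomial.Expand
import Mathlib.Algebra.Polynomial.Eval.Degree

/-!
# The numerator of the zeta function

`(1 - t) (1 - Q t) ∑ A_d t ^ d` is a polynomial of degree at most `2 g` with value the class
number at `1`; over the extension of degree `p` it is the product of its twists.
-/

set_option autoImplicit false

noncomputable section

open AlgebraicCurve PowerSeries Fermat.Agent.FunctionFieldRR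

namespace Fermat.Agent.ResidualTorsion.FrobCurve

variable {k G : Type*} [Field k] [Field G] [Algebra k G] [IsAlgClosed k] [IsFunctionField k G]
  (C : FrobCurve k G)

/-- The generating function of fixed effective divisors. -/
def gf : PowerSeries ℤ := PowerSeries.mk fun d => (Nat.card (C.Eff d) : ℤ)

/-- The numerator as a series. -/
def lSer : PowerSeries ℤ := (1 - X) * (1 - PowerSeries.C (C.Q : ℤ) * X) * C.gf

/-- The numerator. -/
def lPoly : Polynomial ℤ := PowerSeries.trunc (2 * C.g + 1) C.lSer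

theorem coeff_one_sub_X_mul (f : PowerSeries ℤ) (d : ℕ) :
    coeff (d + 1) ((1 - X) * f) = coeff (d + 1) f - coeff d f := by
  rw [sub_mul, one_mul, map_sub, coeff_succ_X_mul]

theorem coeff_one_sub_QX_mul (d : ℕ) :
    coeff (d + 1) ((1 - PowerSeries.C (C.Q : ℤ) * X) * C.gf) =
      coeff (d + 1) C.gf - C.Q * coeff d C.gf := by
  rw [sub_mul, one_mul, map_sub, mul_assoc, coeff_C_mul, coeff_succ_X_mul]

theorem coeff_gf {d : ℕ} (hd : 2 * (C.g : ℤ) - 1 ≤ d) :
    ((C.Q : ℤ) - 1) * coeff d C.gf = (C.h : ℤ) * ((C.Q : ℤ) ^ (d + 1 - C.g) - 1) := by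
  have h1 : 1 ≤ C.Q := C.one_lt.le
  have h2 : 1 ≤ C.Q ^ (d + 1 - C.g) := Nat.one_le_pow _ _ (by omega)
  rw [gf, coeff_mk]
  calc ((C.Q : ℤ) - 1) * (Nat.card (C.Eff d) : ℤ)
      = (((C.Q - 1) * Nat.card (C.Eff d) : ℕ) : ℤ) := by push_cast [Nat.cast_sub h1]; ring
    _ = (((C.h * (C.Q ^ (d + 1 - C.g) - 1)) : ℕ) : ℤ) := by rw [C.natCard_eff hd]
    _ = _ := by push_cast [Nat.cast_sub h2]; ring

theorem coeff_fSer {d : ℕ} (hd : 2 * (C.g : ℤ) - 1 ≤ d) :
    coeff (d + 1) ((1 - PowerSeries.C (C.Q : ℤ) * X) * C.gf) = (C.h : ℤ) := by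
  have hQ : (C.Q : ℤ) - 1 ≠ 0 := by have := C.one_lt; omega
  refine mul_left_cancel₀ hQ ?_
  rw [coeff_one_sub_QX_mul, mul_sub, C.coeff_gf (by push_cast; omega), mul_left_comm,
    C.coeff_gf hd, show d + 1 + 1 - C.g = (d + 1 - C.g) + 1 by omega, pow_succ]
  ring

theorem coeff_fSer' {n : ℕ} (hn : 2 * C.g ≤ n) :
    coeff n ((1 - PowerSeries.C (C.Q : ℤ) * X) * C.gf) = (C.h : ℤ) := by
  cases n with
  | succ d => exact C.coeff_fSer (by push_cast; omega)
  | zero =>
    have hQ : (C.Q : ℤ) - 1 ≠ 0 := by have := C.one_lt; omega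
    refine mul_left_cancel₀ hQ ?_
    rw [coeff_zero_eq_constantCoeff, map_mul, map_sub, map_mul, constantCoeff_X, mul_zero,
      map_one, sub_zero, one_mul, ← coeff_zero_eq_constantCoeff_apply, C.coeff_gf (by omega),
      show 0 + 1 - C.g = 1 by omega, pow_one]
    ring

theorem coeff_lSer {d : ℕ} (hd : 2 * C.g + 1 ≤ d) : coeff d C.lSer = 0 := by
  obtain ⟨e, rfl⟩ : ∃ e, d = e + 1 := ⟨d - 1, by omega⟩
  rw [lSer, mul_assoc, coeff_one_sub_X_mul, C.coeff_fSer' (by omega), C.coeff_fSer' (by omega),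
    sub_self]

theorem coe_lPoly : (C.lPoly : PowerSeries ℤ) = C.lSer := by
  ext d
  rw [Polynomial.coeff_coe, lPoly, coeff_trunc]
  split_ifs with h
  · rfl
  · exact (C.coeff_lSer (by omega)).symm

theorem natDegree_lPoly : C.lPoly.natDegree ≤ 2 * C.g :=
  Polynomial.natDegree_le_iff_coeff_eq_zero.mpr fun d hd => by
    rw [lPoly, coeff_trunc, if_neg (by omega)]

theorem coeff_zero_lPoly : C.lPoly.coeff 0 = 1 := by
  rw [lPoly, coeff_trunc, if_pos (by omega), lSer, coeff_zero_eq_constantCoeff, map_mul, map_mul]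
  have h0 : Nat.card (C.Eff 0) = 1 := by
    have : C.Eff 0 = {0} := by
      ext D
      constructor
      · intro hD
        exact eq_zero_of_nonneg hD.1 (by simpa using hD.2.1)
      · rintro rfl
        exact ⟨le_rfl, by simp, smul_zero _⟩
    rw [this]
    simp
  rw [← coeff_zero_eq_constantCoeff_apply C.gf, gf, coeff_mk, h0]
  simp

theorem eval_one_lPoly : C.lPoly.eval 1 = (C.h : ℤ) := by
  rw [Polynomial.eval_eq_sum_range' (Nat.lt_succ_of_le (C.natDegree_lPoly.trans (Nat.le_succ _))) 1]
  simp only [one_pow, mul_one, Nat.succ_eq_add_one]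
  set f := (1 - PowerSeries.C (C.Q : ℤ) * X) * C.gf with hf
  have key : ∀ N, ∑ d ∈ Finset.range (N + 1), coeff d C.lSer = coeff N f := by
    intro N
    induction N with
    | zero =>
      rw [Finset.sum_range_one, lSer, mul_assoc, ← hf, coeff_zero_eq_constantCoeff, map_mul]
      simp
    | succ N ih =>
      rw [Finset.sum_range_succ, ih, lSer, mul_assoc, ← hf, coeff_one_sub_X_mul]
      ring
  rw [Finset.sum_congr rfl fun d _ => (show C.lPoly.coeff d = coeff d C.lSer by
    rw [← Polynomial.coeff_coe, C.coe_lPoly]), key, hf, C.coeff_fSer' (by omega)]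

/-! ### The twisting identity -/

variable (R : Type*) [CommRing R]

/-- The action of the Frobenius on places. -/
def perm : Equiv.Perm (Place k G) := MulAction.toPerm C.Φ

theorem perm_iterate (i : ℕ) (P : Place k G) : (C.perm)^[i] P = C.Φ ^ i • P := by
  induction i with
  | zero => simp
  | succ i ih => rw [Function.iterate_succ_apply', ih, pow_succ', mul_smul]; rfl

/-- Fixed effective divisors supported in a set containing all short periods. -/
theorem natCard_eff_eq (S : Finset (Place k G)) {d : ℕ}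
    (hS : ∀ m, 0 < m → m ≤ d → ∀ P, C.Φ ^ m • P = P → P ∈ S) :
    Nat.card (C.Eff d) = Nat.card (effSet C.perm S d) := by
  classical
  refine Nat.card_congr
    { toFun := fun D => ⟨(D : Divisor k G).mapRange Int.toNat rfl, fun P hP => ?_, fun P => ?_, ?_⟩
      invFun := fun f => ⟨(f : Place k G →₀ ℕ).mapRange (fun m : ℕ => (m : ℤ)) rfl, ?_, ?_, ?_⟩
      left_inv := fun D => ?_
      right_inv := fun f => ?_ }
  · have hP' : P ∈ (D : Divisor k G).support := Finsupp.support_mapRange hP
    obtain ⟨m, hm0, hmd, hm⟩ := C.exists_period_of_mem_support D.2 hP'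
    exact hS m hm0 hmd P hm
  · have h := SemilinearAut.divisor_smul_apply_smul C.Φ (D : Divisor k G) P
    rw [D.2.2.2] at h
    show Int.toNat ((D : Divisor k G) (C.Φ • P)) = Int.toNat ((D : Divisor k G) P)
    rw [h]
  · have hd : Divisor.degree (D : Divisor k G) = d := D.2.2.1
    rw [degree_eq_sum] at hd
    rw [Finsupp.sum_mapRange_index (fun _ => rfl)]
    have : ((((D : Divisor k G).sum fun _ m => m.toNat) : ℕ) : ℤ) = d := by
      rw [← hd, Finsupp.sum, Finsupp.sum, Nat.cast_sum]
      exact Finset.sum_congr rfl fun P _ =>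
        Int.toNat_of_nonneg (by simpa using Finsupp.le_def.mp D.2.1 P)
    exact_mod_cast this
  · exact Finsupp.le_def.mpr fun P => by simp
  · rw [degree_eq_sum, Finsupp.sum_mapRange_index (fun _ => rfl)]
    have := f.2.2.2
    rw [Finsupp.sum] at this ⊢
    exact_mod_cast this
  · refine Finsupp.ext fun P => ?_
    obtain ⟨P', rfl⟩ : ∃ P', C.Φ • P' = P := ⟨C.Φ⁻¹ • P, smul_inv_smul _ _⟩
    rw [SemilinearAut.divisor_smul_apply_smul, Finsupp.mapRange_apply, Finsupp.mapRange_apply]
    exact congrArg _ (f.2.2.1 P').symm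
  · refine Subtype.ext (Finsupp.ext fun P => ?_)
    simp only [Finsupp.mapRange_apply]
    exact Int.toNat_of_nonneg (by simpa using Finsupp.le_def.mp D.2.1 P)
  · refine Subtype.ext (Finsupp.ext fun P => ?_)
    simp

/-- Places of period at most `n`. -/
def shortPlaces (n : ℕ) : Finset (Place k G) :=
  (Set.Finite.biUnion (Finset.Icc 1 n).finite_toSet fun m hm =>
    C.finite_fixed m (by simp at hm; omega)).toFinset

theorem mem_shortPlaces {n : ℕ} {P : Place k G} :
    P ∈ C.shortPlaces n ↔ ∃ m, 1 ≤ m ∧ m ≤ n ∧ C.Φ ^ m • P = P := by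
  simp only [shortPlaces, Set.Finite.mem_toFinset, Set.mem_iUnion, Finset.mem_coe, Finset.mem_Icc,
    Set.mem_ofPred_eq, exists_prop, and_assoc]

theorem isStable_shortPlaces (n : ℕ) : IsStable C.perm (C.shortPlaces n) := fun P hP => by
  rw [mem_shortPlaces] at hP ⊢
  obtain ⟨m, h1, h2, h3⟩ := hP
  refine ⟨m, h1, h2, ?_⟩
  show C.Φ ^ m • C.Φ • P = C.Φ • P
  rw [← mul_smul, ← pow_succ, pow_succ', mul_smul, h3]

theorem coeff_gen {n d : ℕ} (hd : d ≤ n) :
    coeff d (gen C.perm R (C.shortPlaces n)) = ((coeff d C.gf : ℤ) : R) := by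
  rw [gen, coeff_mk, gf, coeff_mk, Int.cast_natCast, C.natCard_eff_eq (C.shortPlaces n)
    fun m hm hmd P hP => C.mem_shortPlaces.mpr ⟨m, hm, hmd.trans hd, hP⟩]

variable {R}

theorem dvd_sub_of_coeff {f g : PowerSeries R} {N : ℕ} (h : ∀ d, d ≤ N → coeff d f = coeff d g) :
    X ^ (N + 1) ∣ f - g := by
  rw [X_pow_dvd_iff]
  intro d hd
  rw [map_sub, h d (by omega), sub_self]

variable [IsDomain R] {p : ℕ} (hp : p.Prime) {ζ : R} (hζ : IsPrimitiveRoot ζ p)

include hζ in
theorem expand_gf :
    PowerSeries.expand p hp.ne_zero (PowerSeries.map (Int.castRingHom R) (C.power p hp.pos).gf) =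
      ∏ i ∈ Finset.range p, rescale (ζ ^ i) (PowerSeries.map (Int.castRingHom R) C.gf) := by
  classical
  ext N
  set S := C.shortPlaces (p * (N + 1)) with hS
  have hperm : (C.power p hp.pos).perm = C.perm ^ p := Equiv.ext fun P => by
    rw [Equiv.Perm.coe_pow, C.perm_iterate]; rfl
  have e1 : ∀ d, d ≤ N → coeff d (PowerSeries.map (Int.castRingHom R) (C.power p hp.pos).gf) =
      coeff d (gen (C.perm ^ p) R S) := fun d hd => by
    rw [coeff_map, gf, coeff_mk, gen, coeff_mk, ← hperm, eq_intCast, Int.cast_natCast,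
      (C.power p hp.pos).natCard_eff_eq S fun m hm hmd P hP => C.mem_shortPlaces.mpr
        ⟨p * m, Nat.mul_pos hp.pos hm, Nat.mul_le_mul_left p (by omega), by rw [pow_mul]; exact hP⟩]
  have e2 : ∀ d, d ≤ N → coeff d (PowerSeries.map (Int.castRingHom R) C.gf) =
      coeff d (gen C.perm R S) := fun d hd => by
    rw [coeff_map, hS, C.coeff_gen R (hd.trans ((Nat.le_succ N).trans
      (Nat.le_mul_of_pos_left _ hp.pos))), eq_intCast]
  rw [PowerSeries.coeff_expand]
  have h3 : coeff N (∏ i ∈ Finset.range p, rescale (ζ ^ i) (PowerSeries.map (Int.castRingHom R) C.gf))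
      = coeff N (∏ i ∈ Finset.range p, rescale (ζ ^ i) (gen C.perm R S)) := by
    let q := Ideal.Quotient.mk (Ideal.span {(X : PowerSeries R) ^ (N + 1)})
    have hq : q (∏ i ∈ Finset.range p, rescale (ζ ^ i) (PowerSeries.map (Int.castRingHom R) C.gf))
        = q (∏ i ∈ Finset.range p, rescale (ζ ^ i) (gen C.perm R S)) := by
      rw [map_prod, map_prod]
      refine Finset.prod_congr rfl fun i _ => ?_
      rw [Ideal.Quotient.mk_eq_mk_iff_sub_mem, Ideal.mem_span_singleton]
      refine dvd_sub_of_coeff fun d hd => ?_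
      rw [coeff_rescale, coeff_rescale, e2 d hd]
    rw [Ideal.Quotient.mk_eq_mk_iff_sub_mem, Ideal.mem_span_singleton, X_pow_dvd_iff] at hq
    have := hq N (Nat.lt_succ_self N)
    rwa [map_sub, sub_eq_zero] at this
  rw [h3, ← expand_gen_pow hp hζ (C.isStable_shortPlaces _), PowerSeries.coeff_expand]
  split_ifs
  · exact e1 _ (Nat.div_le_self N p)
  · rfl

include hζ in
/-- The numerator over the extension of degree `p` is the product of the twists. -/
theorem expand_lPoly :
    ((C.power p hp.pos).lPoly.map (Int.castRingHom R)).expand R p =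
      ∏ i ∈ Finset.range p,
        (C.lPoly.map (Int.castRingHom R)).comp (Polynomial.C (ζ ^ i) * Polynomial.X) := by
  apply Polynomial.coe_injective
  have hcoe : ∀ P : Polynomial R, ((P.expand R p : Polynomial R) : PowerSeries R) =
      PowerSeries.expand p hp.ne_zero (P : PowerSeries R) := fun P => by
    ext n
    rw [Polynomial.coeff_coe, Polynomial.coeff_expand hp.pos, PowerSeries.coeff_expand,
      Polynomial.coeff_coe]
  have hcomp : ∀ (P : Polynomial R) (a : R),
      ((P.comp (Polynomial.C a * Polynomial.X) : Polynomial R) : PowerSeries R) =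
        rescale a (P : PowerSeries R) := fun P a => by
    ext n
    rw [Polynomial.coeff_coe, Polynomial.comp_C_mul_X_coeff, coeff_rescale, Polynomial.coeff_coe,
      mul_comm]
  have hmap : ∀ D : FrobCurve k G, ((D.lPoly.map (Int.castRingHom R) : Polynomial R) : PowerSeries R)
      = (1 - X) * (1 - PowerSeries.C (D.Q : R) * X) * PowerSeries.map (Int.castRingHom R) D.gf :=
    fun D => by
      rw [Polynomial.polynomial_map_coe, D.coe_lPoly, lSer, map_mul, map_mul, map_sub, map_sub,
        map_one, map_mul, PowerSeries.map_C, PowerSeries.map_X, eq_intCast, Int.cast_natCast]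
  rw [hcoe, hmap, map_mul, map_mul, C.expand_gf hp hζ]
  simp only [power_Q, map_sub, map_one, map_mul, PowerSeries.expand_X, PowerSeries.expand_C,
    Nat.cast_pow, ← Polynomial.coeToPowerSeries.ringHom_apply, map_prod]
  simp only [Polynomial.coeToPowerSeries.ringHom_apply, hcomp, hmap, map_mul, map_sub, map_one,
    rescale_X, Finset.prod_mul_distrib]
  congr 1
  congr 1
  · exact (prod_one_sub_mul hζ hp.pos _).symm
  · have h := (prod_one_sub_mul hζ hp.pos ((PowerSeries.C (C.Q : R)) * X)).symm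
    rw [mul_pow, ← map_pow] at h
    rw [h]
    refine Finset.prod_congr rfl fun i _ => ?_
    have hC : rescale (ζ ^ i) (PowerSeries.C (C.Q : R)) = PowerSeries.C (C.Q : R) := by
      ext n
      rw [coeff_rescale, coeff_C]
      split_ifs with h0 <;> simp [h0]
    rw [hC]
    ring

end Fermat.Agent.ResidualTorsion.FrobCurve

end
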